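import Mathlib
import Fermat.Prelude.Def_ModularCurve_PeriodHomPair
import Fermat.Prelude.Thm_Subgroup_IsArithmetic_exists_nat_mem_strictPeriods_conj

set_option autoImplicit false

/-!
S21, piece (E1): the primitive of a weight 2 cusp form on `Γ₀(N)` and the linear period map.
-/

namespace Fermat.Agent.S21

open UpperHalfPlane CongruenceSubgroup ModularCurve ModularCurve.Period Filter Topology Function
open scoped MatrixGroups Manifold ModularForm Pointwise

local notation "𝕢" => Periodic.qParam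

theorem isOpen_upperHalfPlaneSet' : IsOpen {z : ℂ | 0 < z.im} :=
  Complex.continuous_im.isOpen_preimage _ isOpen_Ioi

/-- A holomorphic, periodic function on the upper half plane which is zero at `i∞` has a primitive
which is zero at `i∞`. -/
theorem exists_primitive_of_periodic {g : ℍ → ℂ} {h : ℝ} (hh : 0 < h)
    (hper : Periodic (g ∘ ofComplex) h) (hhol : MDiff g) (hzero : IsZeroAtImInfty g) :
    ∃ G : ℍ → ℂ, (∀ τ : ℍ, HasDerivAt (G ∘ ofComplex) (g τ) ↑τ) ∧
      Tendsto G atImInfty (𝓝 0) := by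
  have hbdd : IsBoundedAtImInfty g := hzero.isBoundedAtImInfty
  set c : ℂ → ℂ := cuspFunction h g with hc
  have hcdiff : DifferentiableOn ℂ c (Metric.ball 0 1) :=
    differentiableOn_cuspFunction_ball hh hper hhol hbdd
  have hc0 : c 0 = 0 := hzero.cuspFunction_apply_zero hh
  have hball : Metric.ball (0 : ℂ) 1 ∈ 𝓝 (0 : ℂ) := Metric.ball_mem_nhds 0 one_pos
  have hkdiff : DifferentiableOn ℂ (dslope c 0) (Metric.ball 0 1) :=
    (Complex.differentiableOn_dslope hball).mpr hcdiff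
  obtain ⟨K, hK0, hK⟩ := (hkdiff.isExactOn_ball).with_val_at 0 0
  have h2 : (2 * Real.pi * Complex.I : ℂ) ≠ 0 := Complex.two_pi_I_ne_zero
  have hhne : (h : ℂ) ≠ 0 := by exact_mod_cast hh.ne'
  refine ⟨fun τ => (h / (2 * Real.pi * Complex.I)) * K (𝕢 h τ), fun τ => ?_, ?_⟩
  · have hq : 𝕢 h (τ : ℂ) ∈ Metric.ball (0 : ℂ) 1 := by
      rw [mem_ball_zero_iff]
      exact Periodic.norm_qParam_lt_one hh τ.im_pos
    have hqne : 𝕢 h (τ : ℂ) ≠ 0 := Periodic.qParam_ne_zero _
    have hd1 : HasDerivAt (𝕢 h) (𝕢 h (τ : ℂ) * (2 * Real.pi * Complex.I / h)) (τ : ℂ) := by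
      unfold Periodic.qParam
      have : HasDerivAt (fun z : ℂ => 2 * Real.pi * Complex.I * z / h)
          (2 * Real.pi * Complex.I / h) (τ : ℂ) := by
        have := ((hasDerivAt_id (τ : ℂ)).const_mul (2 * Real.pi * Complex.I)).div_const (h : ℂ)
        simpa using this
      exact this.cexp
    have hd2 := (hK _ hq).comp (τ : ℂ) hd1
    have hd3 := hd2.const_mul (h / (2 * Real.pi * Complex.I))
    have hval : (h / (2 * Real.pi * Complex.I)) *
        (dslope c 0 (𝕢 h (τ : ℂ)) * (𝕢 h (τ : ℂ) * (2 * Real.pi * Complex.I / h))) = g τ := by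
      have h3 : dslope c 0 (𝕢 h (τ : ℂ)) * 𝕢 h (τ : ℂ) = g τ := by
        rw [dslope_of_ne _ hqne, slope_def_field, hc0, sub_zero, sub_zero,
          div_mul_cancel₀ _ hqne, hc]
        exact eq_cuspFunction τ hh.ne' hper
      calc _ = (dslope c 0 (𝕢 h (τ : ℂ)) * 𝕢 h (τ : ℂ)) *
            ((h / (2 * Real.pi * Complex.I)) * (2 * Real.pi * Complex.I / h)) := by ring
        _ = g τ := by
          rw [h3]
          field_simp
    rw [hval] at hd3
    refine hd3.congr_of_eventuallyEq ?_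
    filter_upwards [isOpen_upperHalfPlaneSet'.mem_nhds τ.im_pos] with z hz
    simp only [Function.comp_apply, ofComplex_apply_of_im_pos hz]
  · have hKc : ContinuousAt K 0 := (hK 0 (Metric.mem_ball_self one_pos)).continuousAt
    have hq := qParam_tendsto_atImInfty hh
    have h1 : Tendsto (fun τ : ℍ => K (𝕢 h τ)) atImInfty (𝓝 (K 0)) := hKc.tendsto.comp hq
    rw [hK0] at h1
    simpa using h1.const_mul (h / (2 * Real.pi * Complex.I))

/-- Chain rule for a function on the upper half plane composed with a Möbius transformation. -/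
theorem hasDerivAt_comp_smul {F f : ℍ → ℂ}
    (hF : ∀ τ : ℍ, HasDerivAt (F ∘ ofComplex) (f τ) ↑τ) (γ : SL(2, ℤ)) (τ : ℍ) :
    HasDerivAt ((fun w : ℍ => F (γ • w)) ∘ ofComplex) ((f ∣[(2 : ℤ)] γ) τ) ↑τ := by
  set a : ℂ := ((γ 0 0 : ℤ) : ℂ) with ha
  set b : ℂ := ((γ 0 1 : ℤ) : ℂ) with hb
  set c : ℂ := ((γ 1 0 : ℤ) : ℂ) with hc
  set d : ℂ := ((γ 1 1 : ℤ) : ℂ) with hd
  have hdet : a * d - b * c = 1 := by
    have h := γ.det_coe
    rw [Matrix.det_fin_two] at h
    have h' := congrArg (fun x : ℤ => (x : ℂ)) h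
    simp only [Int.cast_sub, Int.cast_mul, Int.cast_one] at h'
    exact h'
  have hcoe : ∀ w : ℍ, ((γ • w : ℍ) : ℂ) = (a * w + b) / (c * w + d) := by
    intro w
    rw [coe_specialLinearGroup_apply]
    simp [ha, hb, hc, hd]
  have hden : ∀ w : ℍ, c * (w : ℂ) + d ≠ 0 := by
    intro w
    have := denom_ne_zero (γ : GL (Fin 2) ℝ) w
    have h2 : denom (γ : GL (Fin 2) ℝ) w = c * w + d := by
      simp [denom, hc, hd]
    rwa [h2] at this
  have hm : HasDerivAt (fun z : ℂ => (a * z + b) / (c * z + d))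
      (1 / (c * (τ : ℂ) + d) ^ 2) (τ : ℂ) := by
    have h1 : HasDerivAt (fun z : ℂ => a * z + b) a (τ : ℂ) := by
      simpa using ((hasDerivAt_id (τ : ℂ)).const_mul a).add_const b
    have h2 : HasDerivAt (fun z : ℂ => c * z + d) c (τ : ℂ) := by
      simpa using ((hasDerivAt_id (τ : ℂ)).const_mul c).add_const d
    have h3 := h1.div h2 (hden τ)
    have h4 : a * (c * (τ : ℂ) + d) - (a * (τ : ℂ) + b) * c = 1 := by linear_combination hdet
    rw [h4] at h3
    exact h3
  have hF' : HasDerivAt (F ∘ ofComplex) (f (γ • τ)) ((a * (τ : ℂ) + b) / (c * (τ : ℂ) + d)) := by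
    rw [← hcoe τ]
    exact hF (γ • τ)
  have hcomp := hF'.comp (τ : ℂ) hm
  have hval : f (γ • τ) * (1 / (c * (τ : ℂ) + d) ^ 2) = (f ∣[(2 : ℤ)] γ) τ := by
    rw [ModularForm.SL_slash_apply]
    have h2 : denom (γ : GL (Fin 2) ℝ) τ = c * τ + d := by
      simp [denom, hc, hd]
    rw [h2, zpow_neg, one_div]
    norm_cast
  rw [hval] at hcomp
  refine hcomp.congr_of_eventuallyEq ?_
  filter_upwards [isOpen_upperHalfPlaneSet'.mem_nhds τ.im_pos] with z hz
  simp only [Function.comp_apply]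
  congr 1
  apply UpperHalfPlane.ext
  rw [hcoe, ofComplex_apply_of_im_pos hz]
  have : 0 < ((a * z + b) / (c * z + d)).im := by
    have := (γ • (⟨z, hz⟩ : ℍ)).im_pos
    rw [UpperHalfPlane.im, hcoe] at this
    exact this
  rw [ofComplex_apply_of_im_pos this]

/-- A function on the upper half plane with vanishing derivative is constant. -/
theorem eq_of_hasDerivAt_zero {G : ℍ → ℂ} (hG : ∀ τ : ℍ, HasDerivAt (G ∘ ofComplex) 0 ↑τ)
    (z w : ℍ) : G z = G w := by
  have hs : IsPreconnected {z : ℂ | 0 < z.im} := (convex_halfSpace_im_gt 0).isPreconnected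
  have hd : DifferentiableOn ℂ (G ∘ ofComplex) {z : ℂ | 0 < z.im} := fun x hx =>
    (hG ⟨x, hx⟩).differentiableAt.differentiableWithinAt
  have hd' : Set.EqOn (deriv (G ∘ ofComplex)) 0 {z : ℂ | 0 < z.im} := fun x hx =>
    (hG ⟨x, hx⟩).deriv
  have := isOpen_upperHalfPlaneSet'.is_const_of_deriv_eq_zero hs hd hd' z.im_pos w.im_pos
  simpa using this

/-- The slash of a cusp form by an element of `SL(2, ℤ)` is holomorphic, periodic and zero
at `i∞`. -/
theorem slash_nice (N : ℕ) [NeZero N] (f : CuspForm (Gamma0 N) 2) (δ : SL(2, ℤ)) :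
    MDiff (⇑f ∣[(2 : ℤ)] δ) ∧ IsZeroAtImInfty (⇑f ∣[(2 : ℤ)] δ) ∧
      ∃ h : ℝ, 0 < h ∧ Periodic ((⇑f ∣[(2 : ℤ)] δ) ∘ ofComplex) h := by
  obtain ⟨M, hM, hper⟩ := Subgroup.IsArithmetic.exists_nat_mem_strictPeriods_conj
    ((Gamma0 N : Subgroup SL(2, ℤ)) : Subgroup (GL (Fin 2) ℝ))
  have hM' : (0 : ℝ) < M := by exact_mod_cast hM
  have hΓ := hper δ⁻¹
  rw [map_inv] at hΓ
  set g := CuspForm.translate f (δ : GL (Fin 2) ℝ) with hg
  have hcoe : (⇑g : ℍ → ℂ) = ⇑f ∣[(2 : ℤ)] δ := CuspForm.coe_translate f δ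
  refine ⟨?_, ?_, M, hM', ?_⟩
  · rw [← hcoe]; exact g.holo'
  · rw [← hcoe]
    have hc : IsCusp OnePoint.infty (ConjAct.toConjAct (δ : GL (Fin 2) ℝ)⁻¹ •
        ((Gamma0 N : Subgroup SL(2, ℤ)) : Subgroup (GL (Fin 2) ℝ))) :=
      Subgroup.isCusp_of_mem_strictPeriods hM' hΓ
    have : Fact (IsCusp OnePoint.infty (ConjAct.toConjAct (δ : GL (Fin 2) ℝ)⁻¹ •
        ((Gamma0 N : Subgroup SL(2, ℤ)) : Subgroup (GL (Fin 2) ℝ)))) := ⟨hc⟩
    exact CuspFormClass.zero_at_infty g
  · rw [← hcoe]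
    exact SlashInvariantFormClass.periodic_comp_ofComplex g hΓ

/-- The primitive of the slash of a cusp form, vanishing at `i∞`. -/
theorem exists_primitive_slash (N : ℕ) [NeZero N] (f : CuspForm (Gamma0 N) 2) (δ : SL(2, ℤ)) :
    ∃ G : ℍ → ℂ, (∀ τ : ℍ, HasDerivAt (G ∘ ofComplex) ((⇑f ∣[(2 : ℤ)] δ) τ) ↑τ) ∧
      Tendsto G atImInfty (𝓝 0) := by
  obtain ⟨h1, h2, h, hh, h3⟩ := slash_nice N f δ
  exact exists_primitive_of_periodic hh h3 h1 h2

/-- Existence of the equivariant primitive (all four clauses of the Prelude definition). -/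
theorem exists_hasEquivariantPrimitive (N : ℕ) [NeZero N] (f : CuspForm (Gamma0 N) 2) :
    ∃ F : ℍ → ℂ, HasEquivariantPrimitive N f F := by
  obtain ⟨F, hF, hF0⟩ := exists_primitive_slash N f 1
  have h1 : ⇑f ∣[(2 : ℤ)] (1 : SL(2, ℤ)) = ⇑f := by
    rw [ModularForm.SL_slash, map_one]
    exact SlashAction.slash_one (G := GL (Fin 2) ℝ) (2 : ℤ) (⇑f : ℍ → ℂ)
  rw [h1] at hF
  refine ⟨F, hF, hF0, ?_, ?_⟩
  · intro γ
    refine ⟨F ((γ : SL(2, ℤ)) • UpperHalfPlane.I) - F UpperHalfPlane.I, fun z => ?_⟩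
    have hinv : ⇑f ∣[(2 : ℤ)] (γ : SL(2, ℤ)) = ⇑f :=
      SlashInvariantForm.slash_action_eqn f _ (Subgroup.mem_map_of_mem _ γ.2)
    have hD : ∀ τ : ℍ, HasDerivAt
        ((fun w : ℍ => F ((γ : SL(2, ℤ)) • w) - F w) ∘ ofComplex) 0 ↑τ := by
      intro τ
      have h2 := (hasDerivAt_comp_smul hF (γ : SL(2, ℤ)) τ).sub (hF τ)
      rw [hinv, sub_self] at h2
      exact h2
    exact eq_of_hasDerivAt_zero hD z UpperHalfPlane.I
  · intro δ
    obtain ⟨G, hG, hG0⟩ := exists_primitive_slash N f δ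
    have hD : ∀ τ : ℍ, HasDerivAt ((fun w : ℍ => F (δ • w) - G w) ∘ ofComplex) 0 ↑τ := by
      intro τ
      have h2 := (hasDerivAt_comp_smul hF δ τ).sub (hG τ)
      rw [sub_self] at h2
      exact h2
    refine ⟨F (δ • UpperHalfPlane.I) - G UpperHalfPlane.I, ?_⟩
    have hconst : ∀ w : ℍ, F (δ • w) =
        (F (δ • UpperHalfPlane.I) - G UpperHalfPlane.I) + G w := by
      intro w
      have := eq_of_hasDerivAt_zero hD w UpperHalfPlane.I
      linear_combination this
    have h3 : Tendsto (fun w : ℍ => (F (δ • UpperHalfPlane.I) - G UpperHalfPlane.I) + G w)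
        atImInfty (𝓝 ((F (δ • UpperHalfPlane.I) - G UpperHalfPlane.I) + 0)) :=
      tendsto_const_nhds.add hG0
    rw [add_zero] at h3
    exact h3.congr fun w => (hconst w).symm

/-- Uniqueness: only the first two clauses are needed. -/
theorem hasEquivariantPrimitive_unique (N : ℕ) {f : CuspForm (Gamma0 N) 2} {F G : ℍ → ℂ}
    (hF : HasEquivariantPrimitive N f F) (hG : HasEquivariantPrimitive N f G) : F = G := by
  have hD : ∀ τ : ℍ, HasDerivAt ((fun w : ℍ => F w - G w) ∘ ofComplex) 0 ↑τ := by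
    intro τ
    have h2 := (hF.1 τ).sub (hG.1 τ)
    rw [sub_self] at h2
    exact h2
  have hlim : Tendsto (fun w : ℍ => F w - G w) atImInfty (𝓝 0) := by
    simpa using hF.2.1.sub hG.2.1
  have hconst : ∀ w : ℍ, F w - G w = F UpperHalfPlane.I - G UpperHalfPlane.I := fun w =>
    eq_of_hasDerivAt_zero hD w UpperHalfPlane.I
  have hlim' : Tendsto (fun w : ℍ => F w - G w) atImInfty
      (𝓝 (F UpperHalfPlane.I - G UpperHalfPlane.I)) :=
    tendsto_const_nhds.congr fun w => (hconst w).symm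
  have h0 := tendsto_nhds_unique hlim hlim'
  funext w
  have := hconst w
  rw [← h0] at this
  exact sub_eq_zero.mp this

/-- The canonical primitive. -/
noncomputable def prim (N : ℕ) [NeZero N] (f : CuspForm (Gamma0 N) 2) : ℍ → ℂ :=
  (exists_hasEquivariantPrimitive N f).choose

theorem prim_spec (N : ℕ) [NeZero N] (f : CuspForm (Gamma0 N) 2) :
    HasEquivariantPrimitive N f (prim N f) :=
  (exists_hasEquivariantPrimitive N f).choose_spec

theorem prim_eq (N : ℕ) [NeZero N] {f : CuspForm (Gamma0 N) 2} {F : ℍ → ℂ}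
    (hF : HasEquivariantPrimitive N f F) : F = prim N f :=
  hasEquivariantPrimitive_unique N hF (prim_spec N f)

theorem periodMap_apply (N : ℕ) [NeZero N] (f : CuspForm (Gamma0 N) 2) (γ : Gamma0 N) :
    periodMap N f (Additive.ofMul γ) =
      prim N f ((γ : SL(2, ℤ)) • UpperHalfPlane.I) - prim N f UpperHalfPlane.I := by
  obtain ⟨F₀, h₀, hp⟩ := periodMap_def N f (prim_spec N f)
  have hF₀ : F₀ = prim N f := prim_eq N h₀
  subst hF₀
  rw [hp]
  rfl

theorem periodMap_apply' (N : ℕ) [NeZero N] (f : CuspForm (Gamma0 N) 2) (γ : Gamma0 N) (z : ℍ) :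
    periodMap N f (Additive.ofMul γ) = prim N f ((γ : SL(2, ℤ)) • z) - prim N f z := by
  rw [periodMap_apply]
  have h := (prim_spec N f).2.2.1
  rw [h.sub_eq_period γ z]
  rfl

theorem prim_add (N : ℕ) [NeZero N] (f g : CuspForm (Gamma0 N) 2) :
    prim N (f + g) = prim N f + prim N g := by
  symm
  apply prim_eq
  obtain ⟨a1, a2, a3, a4⟩ := prim_spec N f
  obtain ⟨b1, b2, b3, b4⟩ := prim_spec N g
  refine ⟨fun τ => ?_, ?_, fun γ => ?_, fun δ => ?_⟩
  · exact (a1 τ).add (b1 τ)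
  · have := a2.add b2
    rw [add_zero] at this
    exact this
  · obtain ⟨c1, hc1⟩ := a3 γ
    obtain ⟨c2, hc2⟩ := b3 γ
    refine ⟨c1 + c2, fun z => ?_⟩
    simp only [Pi.add_apply]
    linear_combination hc1 z + hc2 z
  · obtain ⟨L1, hL1⟩ := a4 δ
    obtain ⟨L2, hL2⟩ := b4 δ
    exact ⟨L1 + L2, hL1.add hL2⟩

theorem prim_smul (N : ℕ) [NeZero N] (c : ℂ) (f : CuspForm (Gamma0 N) 2) :
    prim N (c • f) = c • prim N f := by
  symm
  apply prim_eq
  obtain ⟨a1, a2, a3, a4⟩ := prim_spec N f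
  refine ⟨fun τ => ?_, ?_, fun γ => ?_, fun δ => ?_⟩
  · have := (a1 τ).const_mul c
    exact this
  · have := a2.const_mul c
    rw [mul_zero] at this
    exact this
  · obtain ⟨c1, hc1⟩ := a3 γ
    refine ⟨c * c1, fun z => ?_⟩
    simp only [Pi.smul_apply, smul_eq_mul]
    linear_combination c * hc1 z
  · obtain ⟨L1, hL1⟩ := a4 δ
    exact ⟨c * L1, hL1.const_mul c⟩

/-- The linear period map. -/
noncomputable def pml (N : ℕ) [NeZero N] :
    CuspForm (Gamma0 N) 2 →ₗ[ℂ] (Additive (Gamma0 N) →+ ℂ) where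
  toFun f := periodMap N f
  map_add' f g := by
    refine AddMonoidHom.ext fun γ => ?_
    obtain ⟨γ, rfl⟩ := Additive.ofMul.surjective γ
    rw [AddMonoidHom.add_apply, periodMap_apply, periodMap_apply, periodMap_apply, prim_add]
    simp only [Pi.add_apply]
    ring
  map_smul' c f := by
    refine AddMonoidHom.ext fun γ => ?_
    obtain ⟨γ, rfl⟩ := Additive.ofMul.surjective γ
    rw [RingHom.id_apply, AddMonoidHom.smul_apply, periodMap_apply, periodMap_apply, prim_smul]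
    simp only [Pi.smul_apply, smul_eq_mul]
    ring

theorem pml_apply (N : ℕ) [NeZero N] (f : CuspForm (Gamma0 N) 2) : pml N f = periodMap N f := rfl

theorem existsPeriodMapLinear (N : ℕ) [NeZero N] : ExistsPeriodMapLinear N :=
  ⟨pml N, fun _ => rfl⟩

theorem periodHomPair_eq (N : ℕ) [NeZero N] :
    periodHomPair N = LinearMap.coprod
      ((LinearMap.id + charInvolution N ℂ ℂ) ∘ₗ pml N)
      ((LinearMap.id - charInvolution N ℂ ℂ) ∘ₗ pml N) := by
  obtain ⟨p, hp, h⟩ := periodHomPair_def N (existsPeriodMapLinear N)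
  have : p = pml N := LinearMap.ext fun f => (hp f).trans (pml_apply N f).symm
  rw [h, this]

end Fermat.Agent.S21
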