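import Mathlib
import Fermat.Agent.S21.Primitive

set_option autoImplicit false

/-!
S21, piece (E3): the character involution versus complex conjugation.
-/

namespace Fermat.Agent.S21

open UpperHalfPlane CongruenceSubgroup ModularCurve ModularCurve.Period Filter Topology
open scoped MatrixGroups ComplexConjugate ModularForm

/-- `J γ = (jConj γ) J` in `GL(2, ℝ)`. -/
theorem inv_J_mul (γ : SL(2, ℤ)) :
    UpperHalfPlane.J * (Matrix.SpecialLinearGroup.mapGL ℝ γ) =
      (Matrix.SpecialLinearGroup.mapGL ℝ (jConjSL γ)) * UpperHalfPlane.J := by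
  ext i j
  fin_cases i <;> fin_cases j <;>
    simp [Matrix.mul_apply, Fin.sum_univ_two, jConjMat, Matrix.SpecialLinearGroup.mapGL]

theorem inv_J_smul_smul (γ : SL(2, ℤ)) (z : ℍ) :
    UpperHalfPlane.J • (γ • z) = (jConjSL γ) • (UpperHalfPlane.J • z) := by
  show UpperHalfPlane.J • ((Matrix.SpecialLinearGroup.mapGL ℝ γ) • z) =
    (Matrix.SpecialLinearGroup.mapGL ℝ (jConjSL γ)) • (UpperHalfPlane.J • z)
  rw [← mul_smul, ← mul_smul, inv_J_mul]

theorem inv_J_mul_J : UpperHalfPlane.J * UpperHalfPlane.J = 1 := by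
  rw [← sq, UpperHalfPlane.J_sq]

theorem inv_J_inv : (UpperHalfPlane.J)⁻¹ = UpperHalfPlane.J :=
  inv_eq_of_mul_eq_one_right inv_J_mul_J

theorem inv_J_smul_J_smul (z : ℍ) : UpperHalfPlane.J • (UpperHalfPlane.J • z) = z := by
  rw [← mul_smul, inv_J_mul_J, one_smul]

theorem inv_im_J_smul (z : ℍ) : (UpperHalfPlane.J • z).im = z.im := by
  have h := UpperHalfPlane.coe_J_smul z
  have : ((UpperHalfPlane.J • z : ℍ) : ℂ).im = (-(starRingEnd ℂ) (z : ℂ)).im := by rw [h]
  simpa using this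

theorem inv_J_smul_I : UpperHalfPlane.J • UpperHalfPlane.I = UpperHalfPlane.I := by
  apply UpperHalfPlane.ext
  rw [UpperHalfPlane.coe_J_smul]
  simp

theorem inv_tendsto_J_smul :
    Tendsto (fun w : ℍ => UpperHalfPlane.J • w) atImInfty atImInfty := by
  rw [atImInfty, tendsto_comap_iff]
  have : (UpperHalfPlane.im ∘ fun w : ℍ => UpperHalfPlane.J • w) = UpperHalfPlane.im := by
    funext w
    exact inv_im_J_smul w
  rw [this]
  exact tendsto_comap

open ConjAct Pointwise in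
/-- `J` normalises `Γ₀(N)`. -/
theorem inv_conj_Gamma0 (N : ℕ) :
    ((Gamma0 N : Subgroup SL(2, ℤ)) : Subgroup (GL (Fin 2) ℝ)) =
      toConjAct (UpperHalfPlane.J)⁻¹ • ((Gamma0 N : Subgroup SL(2, ℤ)) : Subgroup (GL (Fin 2) ℝ)) := by
  ext g
  rw [Subgroup.mem_pointwise_smul_iff_inv_smul_mem, ← map_inv, inv_inv, ConjAct.smul_def,
    ConjAct.ofConjAct_toConjAct]
  constructor
  · rintro ⟨γ, hγ, rfl⟩
    refine ⟨jConjSL γ, jConjSL_mem_Gamma0 hγ, ?_⟩
    have h := inv_J_mul γ
    rw [h, mul_assoc, mul_inv_cancel, mul_one]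
  · rintro ⟨γ, hγ, hg⟩
    refine ⟨jConjSL γ, jConjSL_mem_Gamma0 hγ, ?_⟩
    have h := inv_J_mul γ
    have hg' : g = UpperHalfPlane.J * (Matrix.SpecialLinearGroup.mapGL ℝ γ) * UpperHalfPlane.J := by
      have : g = (UpperHalfPlane.J)⁻¹ * (UpperHalfPlane.J * g * (UpperHalfPlane.J)⁻¹) *
          UpperHalfPlane.J := by group
      rw [this, ← hg, inv_J_inv]
    rw [hg', h, mul_assoc, inv_J_mul_J, mul_one]

/-- The form `z ↦ conj (f (-conj z))`, again a cusp form of weight 2 on `Γ₀(N)`. -/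
theorem exists_conjForm (N : ℕ) [NeZero N] (f : CuspForm (Gamma0 N) 2) :
    ∃ g : CuspForm (Gamma0 N) 2, ∀ z : ℍ, g z = conj (f (UpperHalfPlane.J • z)) := by
  refine ⟨CuspForm.mcast rfl (CuspForm.translate f UpperHalfPlane.J) (inv_conj_Gamma0 N),
    fun z => ?_⟩
  show ((⇑f) ∣[(2 : ℤ)] UpperHalfPlane.J) z = _
  rw [ModularForm.slash_apply]
  simp

noncomputable def conjForm (N : ℕ) [NeZero N] (f : CuspForm (Gamma0 N) 2) :
    CuspForm (Gamma0 N) 2 :=
  (exists_conjForm N f).choose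

theorem conjForm_apply (N : ℕ) [NeZero N] (f : CuspForm (Gamma0 N) 2) (z : ℍ) :
    conjForm N f z = conj (f (UpperHalfPlane.J • z)) :=
  (exists_conjForm N f).choose_spec z

/-- Derivative of `z ↦ -conj (F (-conj z))`. -/
theorem inv_hasDerivAt_conj {F : ℍ → ℂ} {f : ℍ → ℂ}
    (hF : ∀ τ : ℍ, HasDerivAt (F ∘ ofComplex) (f τ) ↑τ) (τ : ℍ) :
    HasDerivAt ((fun z : ℍ => - conj (F (UpperHalfPlane.J • z))) ∘ ofComplex)
      (conj (f (UpperHalfPlane.J • τ))) ↑τ := by
  have h1 : HasDerivAt (F ∘ ofComplex) (f (UpperHalfPlane.J • τ)) (-(conj (τ : ℂ))) := by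
    rw [← UpperHalfPlane.coe_J_smul]
    exact hF _
  have hneg : HasDerivAt (fun w : ℂ => -w) (-1) (conj (τ : ℂ)) := by
    exact (hasDerivAt_id' (conj (τ : ℂ))).neg
  have h2 : HasDerivAt ((F ∘ ofComplex) ∘ fun w : ℂ => -w)
      (f (UpperHalfPlane.J • τ) * (-1)) (conj (τ : ℂ)) :=
    HasDerivAt.comp (conj (τ : ℂ)) h1 hneg
  have h3 := h2.conj_conj
  rw [Complex.conj_conj] at h3
  have h4 := h3.neg
  have hval : -(conj (f (UpperHalfPlane.J • τ) * (-1))) = conj (f (UpperHalfPlane.J • τ)) := by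
    simp
  rw [hval] at h4
  refine h4.congr_of_eventuallyEq ?_
  filter_upwards [isOpen_upperHalfPlaneSet'.mem_nhds τ.im_pos] with z hz
  simp only [Function.comp_apply, Pi.neg_apply]
  rw [UpperHalfPlane.J_smul, ofComplex_apply_of_im_pos hz]

theorem prim_conjForm (N : ℕ) [NeZero N] (f : CuspForm (Gamma0 N) 2) (z : ℍ) :
    prim N (conjForm N f) z = - conj (prim N f (UpperHalfPlane.J • z)) := by
  obtain ⟨a1, a2, a3, a4⟩ := prim_spec N f
  have hG : HasEquivariantPrimitive N (conjForm N f)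
      (fun z : ℍ => - conj (prim N f (UpperHalfPlane.J • z))) := by
    refine ⟨fun τ => ?_, ?_, fun γ => ?_, fun δ => ?_⟩
    · rw [conjForm_apply]
      exact inv_hasDerivAt_conj a1 τ
    · have h1 := a2.comp inv_tendsto_J_smul
      have h2 := (Complex.continuous_conj.tendsto (0 : ℂ)).comp h1
      have h3 := h2.neg
      simpa using h3
    · obtain ⟨c, hc⟩ := a3 (jConjGamma0 N γ)
      refine ⟨- conj c, fun z => ?_⟩
      have := hc (UpperHalfPlane.J • z)
      rw [jConjGamma0_coe] at this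
      simp only
      rw [inv_J_smul_smul, ← this]
      simp only [map_sub]
      ring
    · obtain ⟨L, hL⟩ := a4 (jConjSL δ)
      refine ⟨- conj L, ?_⟩
      have h1 := hL.comp inv_tendsto_J_smul
      have h2 := ((Complex.continuous_conj.tendsto L).comp h1).neg
      refine h2.congr fun w => ?_
      simp only [Function.comp_apply]
      rw [inv_J_smul_smul]
  have := prim_eq N hG
  rw [← this]

theorem charInvolution_periodMap (N : ℕ) [NeZero N] (f : CuspForm (Gamma0 N) 2)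
    (γ : Additive (Gamma0 N)) :
    charInvolution N ℂ ℂ (periodMap N f) γ = - conj (periodMap N (conjForm N f) γ) := by
  obtain ⟨γ, rfl⟩ := Additive.ofMul.surjective γ
  rw [charInvolution_apply, toMul_ofMul, periodMap_apply, periodMap_apply, prim_conjForm,
    prim_conjForm, inv_J_smul_smul, inv_J_smul_I, jConjGamma0_coe]
  simp only [map_sub, map_neg, Complex.conj_conj]
  ring

end Fermat.Agent.S21
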