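import Mathlib
import Fermat.Agent.S21.Primitive

set_option autoImplicit false

/-!
S21, piece (E2): periods of cusp forms are parabolic.
-/

namespace Fermat.Agent.S21

open UpperHalfPlane CongruenceSubgroup ModularCurve ModularCurve.Period Filter Topology
open scoped MatrixGroups

/-- An element of `SL(2, ℤ)` with lower left entry `0` is `± T^m`. -/
theorem par_eq_T_zpow_of_c_eq_zero (g : SL(2, ℤ)) (hc : g 1 0 = 0) :
    ∃ m : ℤ, g = ModularGroup.T ^ m ∨ g = -(ModularGroup.T ^ m) := by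
  have hdet := Matrix.det_fin_two g.1
  rw [g.2] at hdet
  have hc' : g.1 1 0 = 0 := hc
  rw [hc', mul_zero, sub_zero] at hdet
  rcases Int.eq_one_or_neg_one_of_mul_eq_one' hdet.symm with ⟨ha, hd⟩ | ⟨ha, hd⟩
  · refine ⟨g.1 0 1, Or.inl ?_⟩
    ext i j
    rw [ModularGroup.coe_T_zpow]
    fin_cases i <;> fin_cases j <;> simp [ha, hd, hc']
  · refine ⟨-g.1 0 1, Or.inr ?_⟩
    ext i j
    rw [Matrix.SpecialLinearGroup.coe_neg, ModularGroup.coe_T_zpow]
    fin_cases i <;> fin_cases j <;> simp [ha, hd, hc']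

/-- An element of `SL(2, ℤ)` whose trace squared is `4` is conjugate to one with lower left
entry `0`. -/
theorem par_exists_conj_c_eq_zero (γ : SL(2, ℤ))
    (h : (γ : Matrix (Fin 2) (Fin 2) ℤ).trace ^ 2 = 4) :
    ∃ δ : SL(2, ℤ), (δ⁻¹ * γ * δ) 1 0 = 0 := by
  by_cases hc : γ 1 0 = 0
  · exact ⟨1, by simpa using hc⟩
  -- notation
  set a := γ.1 0 0 with ha
  set b := γ.1 0 1 with hb
  set c := γ.1 1 0 with hcdef
  set d := γ.1 1 1 with hd
  have hdet : a * d - b * c = 1 := by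
    have := Matrix.det_fin_two γ.1
    rw [γ.2] at this
    exact this.symm
  have htr : (a + d) ^ 2 = 4 := by
    have : (γ : Matrix (Fin 2) (Fin 2) ℤ).trace = a + d := Matrix.trace_fin_two _
    rw [this] at h
    exact h
  obtain ⟨ε, hε, hεt⟩ : ∃ ε : ℤ, ε ^ 2 = 1 ∧ a + d = 2 * ε := by
    have h4 : (a + d - 2) * (a + d + 2) = 0 := by linear_combination htr
    rcases mul_eq_zero.mp h4 with h' | h'
    · exact ⟨1, by norm_num, by linarith⟩
    · exact ⟨-1, by norm_num, by linarith⟩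
  have hc0 : c ≠ 0 := hc
  -- the eigenvector `(a - ε, c)`, made primitive
  set g := Int.gcd (a - ε) c with hg
  have hg0 : (g : ℤ) ≠ 0 := by
    intro h0
    have : g = 0 := by exact_mod_cast h0
    rw [hg, Int.gcd_eq_zero_iff] at this
    exact hc0 this.2
  obtain ⟨x, hx⟩ : (g : ℤ) ∣ a - ε := Int.gcd_dvd_left _ _
  obtain ⟨z, hz⟩ : (g : ℤ) ∣ c := Int.gcd_dvd_right _ _
  have hcop : IsCoprime x z := by
    have h1 : Int.gcd (a - ε) c = g := rfl
    rw [hx, hz, Int.gcd_mul_left, Int.natAbs_natCast] at h1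
    have hgpos : 0 < g := Nat.pos_of_ne_zero (by exact_mod_cast hg0)
    have : Int.gcd x z = 1 := by
      have := Nat.eq_of_mul_eq_mul_left hgpos (h1.trans (mul_one g).symm)
      exact this
    exact Int.isCoprime_iff_gcd_eq_one.mpr this
  obtain ⟨u, w, huw⟩ := hcop
  -- δ = [[x, -w], [z, u]]
  let δ : SL(2, ℤ) := ⟨!![x, -w; z, u], by
    rw [Matrix.det_fin_two_of]; linarith⟩
  refine ⟨δ, ?_⟩
  have hinv : (δ⁻¹ : SL(2, ℤ)).1 = !![u, w; -z, x] := by
    rw [Matrix.SpecialLinearGroup.coe_inv, Matrix.adjugate_fin_two]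
    simp [δ]
  have hγ : γ.1 = !![a, b; c, d] := by
    ext i j
    fin_cases i <;> fin_cases j <;> rfl
  have hentry : (δ⁻¹ * γ * δ) 1 0 = c * x ^ 2 + (d - a) * x * z - b * z ^ 2 := by
    show (δ⁻¹ * γ * δ).1 1 0 = _
    rw [Matrix.SpecialLinearGroup.coe_mul, Matrix.SpecialLinearGroup.coe_mul, hinv, hγ]
    simp [δ, Matrix.mul_apply, Fin.sum_univ_two]
    ring
  rw [hentry]
  -- multiply by g^2
  have hkey : (g : ℤ) ^ 2 * (c * x ^ 2 + (d - a) * x * z - b * z ^ 2) = 0 := by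
    have e1 : (g : ℤ) * x = a - ε := hx.symm
    have e2 : (g : ℤ) * z = c := hz.symm
    have : (g : ℤ) ^ 2 * (c * x ^ 2 + (d - a) * x * z - b * z ^ 2) =
        c * ((g : ℤ) * x) ^ 2 + (d - a) * ((g : ℤ) * x) * ((g : ℤ) * z) - b * ((g : ℤ) * z) ^ 2 := by
      ring
    rw [this, e1, e2]
    have hd' : d = 2 * ε - a := by linarith
    rw [hd'] at hdet ⊢
    linear_combination c * hdet - c * hε
  rcases mul_eq_zero.mp hkey with h' | h'
  · exact absurd (pow_eq_zero_iff two_ne_zero |>.mp h') hg0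
  · exact h'

/-- An element of `SL(2, ℤ)` whose trace squared is `4` is `± δ T^m δ⁻¹`. -/
theorem exists_conj_T_zpow_of_trace_sq_eq_four (γ : SL(2, ℤ))
    (h : (γ : Matrix (Fin 2) (Fin 2) ℤ).trace ^ 2 = 4) :
    ∃ (δ : SL(2, ℤ)) (m : ℤ), γ = δ * ModularGroup.T ^ m * δ⁻¹ ∨
      γ = -(δ * ModularGroup.T ^ m * δ⁻¹) := by
  obtain ⟨δ, hδ⟩ := par_exists_conj_c_eq_zero γ h
  obtain ⟨m, hm | hm⟩ := par_eq_T_zpow_of_c_eq_zero _ hδ
  · refine ⟨δ, m, Or.inl ?_⟩
    rw [← hm]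
    group
  · refine ⟨δ, m, Or.inr ?_⟩
    have : δ * ModularGroup.T ^ m * δ⁻¹ = -(δ * (δ⁻¹ * γ * δ) * δ⁻¹) := by
      rw [hm]
      simp
    rw [this, neg_neg]
    group

/-- `w ↦ T^m • w` tends to `i∞`. -/
theorem par_tendsto_T_zpow_smul (m : ℤ) :
    Tendsto (fun w : ℍ => ModularGroup.T ^ m • w) atImInfty atImInfty := by
  rw [atImInfty, tendsto_comap_iff]
  have : (UpperHalfPlane.im ∘ fun w : ℍ => ModularGroup.T ^ m • w) = UpperHalfPlane.im := by
    funext w
    exact ModularGroup.im_T_zpow_smul w m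
  rw [this]
  exact tendsto_comap

/-- The period of a cusp form along an element of trace `± 2` vanishes. -/
theorem periodMap_mem_parabolicHoms (N : ℕ) [NeZero N] (f : CuspForm (Gamma0 N) 2) :
    periodMap N f ∈ parabolicHoms ℂ (Gamma0 N) ℂ := by
  rw [mem_parabolicHoms_iff]
  intro γ hγ
  obtain ⟨δ, m, hδ⟩ := exists_conj_T_zpow_of_trace_sq_eq_four (γ : SL(2, ℤ)) hγ
  obtain ⟨L, hL⟩ := (prim_spec N f).2.2.2 δ
  -- the action of γ on δ • w
  have hact : ∀ w : ℍ, ((γ : SL(2, ℤ)) • (δ • w)) = δ • (ModularGroup.T ^ m • w) := by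
    intro w
    rcases hδ with h' | h'
    · rw [h', mul_smul, mul_smul, inv_smul_smul]
    · rw [h', ModularGroup.SL_neg_smul, mul_smul, mul_smul, inv_smul_smul]
  have hconst : ∀ w : ℍ, periodMap N f (Additive.ofMul γ) =
      prim N f (δ • (ModularGroup.T ^ m • w)) - prim N f (δ • w) := by
    intro w
    rw [periodMap_apply' N f γ (δ • w), hact]
  have h1 : Tendsto (fun w : ℍ => prim N f (δ • (ModularGroup.T ^ m • w))) atImInfty (𝓝 L) :=
    hL.comp (par_tendsto_T_zpow_smul m)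
  have h2 : Tendsto (fun w : ℍ => prim N f (δ • (ModularGroup.T ^ m • w)) - prim N f (δ • w))
      atImInfty (𝓝 (L - L)) := h1.sub hL
  have h3 : Tendsto (fun _ : ℍ => periodMap N f (Additive.ofMul γ)) atImInfty (𝓝 (L - L)) := by
    refine h2.congr fun w => (hconst w).symm
  have h4 := tendsto_nhds_unique h3 tendsto_const_nhds
  rw [sub_self] at h4
  exact h4.symm

end Fermat.Agent.S21
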