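import Mathlib
import Fermat.Agent.S21.Involution
import Fermat.Agent.S21.Parabolic

set_option autoImplicit false

/-!
S21, piece (E4): injectivity of the period pairing.

The analytic heart is a maximum principle on the compactified quotient, implemented as a
vector valued maximum modulus argument on the unit disc (via the `q`-parameter).
-/

namespace Fermat.Agent.S21

section AbstractMax

open Complex Filter Topology Function.Periodic Metric

/-- Abstract maximum principle for a finite family of periodic holomorphic functions on the upper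
half plane whose square-norm-sum is dominated by its values on `Im ≥ 1/2`. -/
theorem inj_const_of_family {ι : Type*} [Fintype ι] {h : ℝ} (hh : 0 < h) (E : ι → ℂ → ℂ)
    (hper : ∀ i, Function.Periodic (E i) h)
    (hdiff : ∀ i (z : ℂ), 0 < z.im → DifferentiableAt ℂ (E i) z)
    (hbdd : ∀ i, BoundedAtFilter (comap Complex.im atTop) (E i))
    (hdom : ∀ z : ℂ, 0 < z.im → ∃ z' : ℂ, 1 / 2 ≤ z'.im ∧
      ∑ i, ‖E i z‖ ^ 2 ≤ ∑ i, ‖E i z'‖ ^ 2) :
    ∀ i (z : ℂ), 0 < z.im → E i z = cuspFunction h (E i) 0 := by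
  classical
  -- the vector valued cusp function
  let K : ℂ → EuclideanSpace ℂ ι := fun q => WithLp.toLp 2 (fun i => cuspFunction h (E i) q)
  have hKi : ∀ q i, K q i = cuspFunction h (E i) q := fun q i => rfl
  have hKnorm : ∀ q, ‖K q‖ = Real.sqrt (∑ i, ‖cuspFunction h (E i) q‖ ^ 2) := by
    intro q
    rw [EuclideanSpace.norm_eq]
  have hdiffK : DifferentiableOn ℂ K (ball 0 1) := by
    intro q hq
    apply DifferentiableAt.differentiableWithinAt
    rw [differentiableAt_euclidean]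
    intro i
    show DifferentiableAt ℂ (fun x => cuspFunction h (E i) x) q
    rcases eq_or_ne q 0 with rfl | hq0
    · exact differentiableAt_cuspFunction_zero hh (hper i)
        (by
          have : ∀ᶠ z in comap Complex.im atTop, 0 < z.im :=
            (tendsto_comap (f := Complex.im) (x := atTop)).eventually (eventually_gt_atTop 0)
          exact this.mono (fun z hz => hdiff i z hz)) (hbdd i)
    · have hq1 : ‖q‖ < 1 := by simpa using hq
      have him : 0 < (invQParam h q).im := im_invQParam_pos_of_norm_lt_one hh hq1 hq0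
      have := differentiableAt_cuspFunction hh.ne' (hper i) (hdiff i _ him)
      rwa [qParam_right_inv hh.ne' hq0] at this
  have hr_lt : Real.exp (-Real.pi / h) < 1 := by
    rw [Real.exp_lt_one_iff]
    exact div_neg_of_neg_of_pos (neg_lt_zero.mpr Real.pi_pos) hh
  have key := eq_const_of_exists_le (f := K) (r := Real.exp (-Real.pi / h)) (b := 1) hdiffK
    (Real.exp_nonneg _) hr_lt (fun q hq => by
      rcases eq_or_ne q 0 with rfl | hq0
      · exact ⟨0, by simp [Real.exp_nonneg], le_rfl⟩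
      · have hq1 : ‖q‖ < 1 := by simpa using hq
        have him : 0 < (invQParam h q).im := im_invQParam_pos_of_norm_lt_one hh hq1 hq0
        obtain ⟨z', hz', hle⟩ := hdom _ him
        refine ⟨qParam h z', ?_, ?_⟩
        · rw [mem_closedBall, dist_zero_right, norm_qParam]
          apply Real.exp_le_exp.mpr
          rw [div_le_div_iff_of_pos_right hh]
          have := Real.pi_pos
          nlinarith [Real.pi_pos]
        · rw [hKnorm, hKnorm]
          apply Real.sqrt_le_sqrt
          have e1 : ∀ i, cuspFunction h (E i) q = E i (invQParam h q) := fun i =>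
            cuspFunction_eq_of_nonzero h (E i) hq0
          have e2 : ∀ i, cuspFunction h (E i) (qParam h z') = E i z' := fun i =>
            eq_cuspFunction hh.ne' (hper i) z'
          simp only [e1, e2]
          exact hle)
  intro i z hz
  have hq : qParam h z ∈ ball (0 : ℂ) 1 := by
    rw [mem_ball, dist_zero_right]
    exact norm_qParam_lt_one hh hz
  have := key hq
  have h2 := congrFun (congrArg (fun v : EuclideanSpace ℂ ι => (v : ι → ℂ)) this) i
  simp only [Function.const_apply] at h2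
  rw [hKi, hKi, eq_cuspFunction hh.ne' (hper i)] at h2
  exact h2

end AbstractMax

open UpperHalfPlane CongruenceSubgroup ModularCurve ModularCurve.Period Filter Topology
open scoped MatrixGroups ComplexConjugate Manifold

/-- A function on the upper half plane whose real part is `Γ₀(N)`-invariant, which is
holomorphic, `N`-periodic after any `SL(2, ℤ)` translate and has a limit at every cusp, has
vanishing derivative. -/
theorem inj_deriv_eq_zero (N : ℕ) [NeZero N] (φ : ℍ → ℂ) (d : ℍ → ℂ)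
    (hd : ∀ τ : ℍ, HasDerivAt (φ ∘ ofComplex) (d τ) ↑τ)
    (hre : ∀ γ ∈ Gamma0 N, ∀ z : ℍ, (φ (γ • z)).re = (φ z).re)
    (hper : ∀ (δ : SL(2, ℤ)) (z : ℍ), φ (δ • (ModularGroup.T ^ (N : ℤ) • z)) = φ (δ • z))
    (hlim : ∀ δ : SL(2, ℤ), ∃ L : ℂ, Tendsto (fun w : ℍ => φ (δ • w)) atImInfty (𝓝 L)) :
    ∀ τ : ℍ, d τ = 0 := by
  classical
  have : Fintype (SL(2, ℤ) ⧸ Gamma0 N) := Fintype.ofFinite _
  have hA : ∀ (g₁ g₂ : SL(2, ℤ)), (g₁ : SL(2, ℤ) ⧸ Gamma0 N) = g₂ → ∀ z : ℍ,
      (φ (g₁⁻¹ • z)).re = (φ (g₂⁻¹ • z)).re := by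
    intro g₁ g₂ h12 z
    have hmem : g₁⁻¹ * g₂ ∈ Gamma0 N := QuotientGroup.eq.mp h12
    have := hre _ hmem (g₂⁻¹ • z)
    rw [← mul_smul, mul_assoc, mul_inv_cancel, mul_one] at this
    exact this
  have hφmd : MDifferentiable 𝓘(ℂ) 𝓘(ℂ) φ := fun τ =>
    mdifferentiableAt_iff.mpr (hd τ).differentiableAt
  let E : (SL(2, ℤ) ⧸ Gamma0 N) → ℂ → ℂ := fun c z =>
    Complex.exp (φ ((Quotient.out c)⁻¹ • ofComplex z))
  have hEnorm : ∀ c z, ‖E c z‖ = Real.exp ((φ ((Quotient.out c)⁻¹ • ofComplex z)).re) :=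
    fun c z => Complex.norm_exp _
  -- invariance of the square sum
  have hinv : ∀ (σ : SL(2, ℤ)) (z : ℍ),
      ∑ c, ‖E c ↑(σ • z)‖ ^ 2 = ∑ c, ‖E c ↑z‖ ^ 2 := by
    intro σ z
    have h1 : ∀ c, ‖E c ↑(σ • z)‖ ^ 2 = ‖E (σ⁻¹ • c) ↑z‖ ^ 2 := by
      intro c
      rw [hEnorm, hEnorm, ofComplex_apply, ofComplex_apply]
      have e : (Quotient.out c)⁻¹ • σ • z = (σ⁻¹ * Quotient.out c)⁻¹ • z := by
        rw [mul_inv_rev, inv_inv, mul_smul]
      rw [e]
      have hc : ((σ⁻¹ * Quotient.out c : SL(2, ℤ)) : SL(2, ℤ) ⧸ Gamma0 N)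
          = ((Quotient.out (σ⁻¹ • c) : SL(2, ℤ)) : SL(2, ℤ) ⧸ Gamma0 N) := by
        rw [QuotientGroup.out_eq']
        have := MulAction.Quotient.smul_coe (Gamma0 N) σ⁻¹ (Quotient.out c)
        rw [QuotientGroup.out_eq', smul_eq_mul] at this
        exact this.symm
      rw [hA _ _ hc z]
    rw [Finset.sum_congr rfl (fun c _ => h1 c)]
    exact Equiv.sum_comp (MulAction.toPerm (σ⁻¹ : SL(2, ℤ)))
      (fun c : SL(2, ℤ) ⧸ Gamma0 N => ‖E c ↑z‖ ^ 2)
  have hNpos : (0 : ℝ) < (N : ℝ) := Nat.cast_pos.mpr (Nat.pos_of_ne_zero (NeZero.ne N))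
  have hEper : ∀ c, Function.Periodic (E c) ((N : ℝ) : ℂ) := by
    intro c z
    show Complex.exp _ = Complex.exp _
    rcases lt_or_ge 0 z.im with hz | hz
    · have hz' : 0 < (z + ((N : ℝ) : ℂ)).im := by simpa using hz
      have e : ofComplex (z + ((N : ℝ) : ℂ)) = ModularGroup.T ^ (N : ℤ) • ofComplex z := by
        apply UpperHalfPlane.ext
        rw [ModularGroup.coe_T_zpow_smul_eq, ofComplex_apply_of_im_pos hz',
          ofComplex_apply_of_im_pos hz]
        simp
      rw [e, hper]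
    · have hz' : (z + ((N : ℝ) : ℂ)).im ≤ 0 := by simpa using hz
      rw [ofComplex_apply_of_im_nonpos hz', ofComplex_apply_of_im_nonpos hz]
  have hEdiff : ∀ c (z : ℂ), 0 < z.im → DifferentiableAt ℂ (E c) z := by
    intro c z hz
    have hdet : 0 < ((((Quotient.out c)⁻¹ : SL(2, ℤ)) : GL (Fin 2) ℝ)).det.val := by simp
    have h1 : MDifferentiable 𝓘(ℂ) 𝓘(ℂ) (fun τ : ℍ => φ ((Quotient.out c)⁻¹ • τ)) :=
      hφmd.comp (mdifferentiable_smul hdet)
    have h2 := mdifferentiableAt_iff.mp (h1 ⟨z, hz⟩)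
    exact h2.cexp
  have hEbdd : ∀ c, BoundedAtFilter (comap Complex.im atTop) (E c) := by
    intro c
    obtain ⟨L, hL⟩ := hlim (Quotient.out c)⁻¹
    have h1 : Tendsto (fun z : ℂ => φ ((Quotient.out c)⁻¹ • ofComplex z))
        (comap Complex.im atTop) (𝓝 L) := hL.comp tendsto_comap_im_ofComplex
    have h2 : Tendsto (E c) (comap Complex.im atTop) (𝓝 (Complex.exp L)) :=
      (Complex.continuous_exp.tendsto L).comp h1
    exact h2.isBigO_one ℝ
  have hEdom : ∀ z : ℂ, 0 < z.im → ∃ z' : ℂ, 1 / 2 ≤ z'.im ∧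
      ∑ c, ‖E c z‖ ^ 2 ≤ ∑ c, ‖E c z'‖ ^ 2 := by
    intro z hz
    obtain ⟨γ, hγ, -⟩ := ModularGroup.exists_one_half_le_im_smul_and_norm_denom_le ⟨z, hz⟩
    refine ⟨↑(γ • (⟨z, hz⟩ : ℍ)), hγ, ?_⟩
    rw [hinv γ ⟨z, hz⟩]
  have hconst := inj_const_of_family hNpos E hEper hEdiff hEbdd hEdom
  -- now `exp ∘ φ` is constant
  set c0 : SL(2, ℤ) ⧸ Gamma0 N := ((1 : SL(2, ℤ)) : SL(2, ℤ) ⧸ Gamma0 N) with hc0
  set C : ℂ := Function.Periodic.cuspFunction (N : ℝ) (E c0) 0 with hC
  have hexp : ∀ w : ℍ, Complex.exp (φ w) = C := by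
    intro w
    have := hconst c0 ↑((Quotient.out c0) • w) ((Quotient.out c0) • w).im_pos
    refine Eq.trans ?_ this
    show Complex.exp (φ w) = Complex.exp (φ ((Quotient.out c0)⁻¹ • ofComplex ↑((Quotient.out c0) • w)))
    rw [ofComplex_apply, inv_smul_smul]
  intro τ
  have h1 : HasDerivAt (fun z => Complex.exp ((φ ∘ ofComplex) z))
      (Complex.exp ((φ ∘ ofComplex) ↑τ) * d τ) ↑τ := (hd τ).cexp
  have h2 : (fun z => Complex.exp ((φ ∘ ofComplex) z)) =ᶠ[𝓝 (τ : ℂ)] fun _ => C := by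
    filter_upwards [isOpen_upperHalfPlaneSet.mem_nhds τ.im_pos] with z hz
    exact hexp (ofComplex z)
  have h3 : HasDerivAt (fun z => Complex.exp ((φ ∘ ofComplex) z)) 0 ↑τ :=
    (hasDerivAt_const (τ : ℂ) C).congr_of_eventuallyEq h2
  have h4 := h1.unique h3
  exact (mul_eq_zero.mp h4).resolve_left (Complex.exp_ne_zero _)

/-- Conjugates of `T ^ N` lie in `Γ₀(N)` and have trace `2`. -/
theorem inj_conj_T_mem (N : ℕ) (δ : SL(2, ℤ)) :
    δ * ModularGroup.T ^ (N : ℤ) * δ⁻¹ ∈ Gamma0 N ∧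
      ((δ * ModularGroup.T ^ (N : ℤ) * δ⁻¹ : SL(2, ℤ)) : Matrix (Fin 2) (Fin 2) ℤ).trace ^ 2
        = 4 := by
  have hdet : (δ : Matrix (Fin 2) (Fin 2) ℤ) 0 0 * (δ : Matrix (Fin 2) (Fin 2) ℤ) 1 1
      - (δ : Matrix (Fin 2) (Fin 2) ℤ) 0 1 * (δ : Matrix (Fin 2) (Fin 2) ℤ) 1 0 = 1 := by
    have := δ.det_coe
    rwa [Matrix.det_fin_two] at this
  have hmat : ((δ * ModularGroup.T ^ (N : ℤ) * δ⁻¹ : SL(2, ℤ)) : Matrix (Fin 2) (Fin 2) ℤ)
      = (δ : Matrix (Fin 2) (Fin 2) ℤ) * !![1, (N : ℤ); 0, 1]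
        * Matrix.adjugate (δ : Matrix (Fin 2) (Fin 2) ℤ) := by
    rw [Matrix.SpecialLinearGroup.coe_mul, Matrix.SpecialLinearGroup.coe_mul,
      Matrix.SpecialLinearGroup.coe_inv, ModularGroup.coe_T_zpow]
  constructor
  · rw [Gamma0_mem]
    have : ((δ * ModularGroup.T ^ (N : ℤ) * δ⁻¹ : SL(2, ℤ)) : Matrix (Fin 2) (Fin 2) ℤ) 1 0
        = -((δ : Matrix (Fin 2) (Fin 2) ℤ) 1 0) ^ 2 * (N : ℤ) := by
      rw [hmat, Matrix.adjugate_fin_two]
      simp [Matrix.mul_apply, Fin.sum_univ_two]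
      ring
    rw [this]
    push_cast
    simp
  · have : ((δ * ModularGroup.T ^ (N : ℤ) * δ⁻¹ : SL(2, ℤ)) : Matrix (Fin 2) (Fin 2) ℤ).trace
        = 2 := by
      rw [hmat, Matrix.adjugate_fin_two, Matrix.trace_fin_two]
      simp [Matrix.mul_apply, Fin.sum_univ_two]
      linear_combination 2 * hdet
    rw [this]
    norm_num

/-- The analytic heart: if the periods of `f` are the complex conjugates of the periods of `g`
then `f = 0` (maximum principle on the compactified quotient). -/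
theorem eq_zero_of_periodMap_eq_conj (N : ℕ) [NeZero N] (f g : CuspForm (Gamma0 N) 2)
    (h : ∀ γ : Additive (Gamma0 N), periodMap N f γ = conj (periodMap N g γ)) : f = 0 := by
  obtain ⟨hFd, -, -, hFlim⟩ := prim_spec N f
  obtain ⟨hGd, -, -, hGlim⟩ := prim_spec N g
  -- parabolic vanishing
  have hpar : ∀ (k : CuspForm (Gamma0 N) 2) (δ : SL(2, ℤ)) (z : ℍ),
      prim N k (δ • (ModularGroup.T ^ (N : ℤ) • z)) = prim N k (δ • z) := by
    intro k δ z
    obtain ⟨hmem, htr⟩ := inj_conj_T_mem N δ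
    have h0 : periodMap N k (Additive.ofMul ⟨_, hmem⟩) = 0 :=
      (periodMap_mem_parabolicHoms N k) ⟨_, hmem⟩ htr
    have h1 := periodMap_apply' N k ⟨_, hmem⟩ (δ • z)
    rw [h0] at h1
    have e : (δ * ModularGroup.T ^ (N : ℤ) * δ⁻¹) • δ • z
        = δ • (ModularGroup.T ^ (N : ℤ) • z) := by
      rw [← mul_smul, ← mul_smul, inv_mul_cancel_right]
    have h2 : prim N k ((δ * ModularGroup.T ^ (N : ℤ) * δ⁻¹) • δ • z) = prim N k (δ • z) := by
      have := sub_eq_zero.mp h1.symm
      exact this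
    rw [← e, h2]
  -- the two auxiliary functions
  have key1 : ∀ τ : ℍ, f τ - g τ = 0 := by
    refine inj_deriv_eq_zero N (fun z => prim N f z - prim N g z) (fun τ => f τ - g τ)
      (fun τ => (hFd τ).sub (hGd τ)) ?_ ?_ ?_
    · intro γ hγ z
      have pf := periodMap_apply' N f ⟨γ, hγ⟩ z
      have pg := periodMap_apply' N g ⟨γ, hγ⟩ z
      have hh := h (Additive.ofMul ⟨γ, hγ⟩)
      rw [pf, pg] at hh
      have hre := congrArg Complex.re hh
      simp only [Complex.sub_re, Complex.conj_re] at hre ⊢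
      linarith
    · intro δ z
      show prim N f _ - prim N g _ = prim N f _ - prim N g _
      rw [hpar f, hpar g]
    · intro δ
      obtain ⟨L1, hL1⟩ := hFlim δ
      obtain ⟨L2, hL2⟩ := hGlim δ
      exact ⟨L1 - L2, hL1.sub hL2⟩
  have key2 : ∀ τ : ℍ, -Complex.I * (f τ + g τ) = 0 := by
    refine inj_deriv_eq_zero N (fun z => -Complex.I * (prim N f z + prim N g z))
      (fun τ => -Complex.I * (f τ + g τ))
      (fun τ => ((hFd τ).add (hGd τ)).const_mul (-Complex.I)) ?_ ?_ ?_
    · intro γ hγ z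
      have pf := periodMap_apply' N f ⟨γ, hγ⟩ z
      have pg := periodMap_apply' N g ⟨γ, hγ⟩ z
      have hh := h (Additive.ofMul ⟨γ, hγ⟩)
      rw [pf, pg] at hh
      have him := congrArg Complex.im hh
      simp only [Complex.sub_im, Complex.conj_im] at him
      simp only [Complex.mul_re, Complex.neg_re, Complex.neg_im, Complex.I_re, Complex.I_im,
        Complex.add_im, Complex.add_re]
      linarith
    · intro δ z
      show -Complex.I * (prim N f _ + prim N g _) = -Complex.I * (prim N f _ + prim N g _)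
      rw [hpar f, hpar g]
    · intro δ
      obtain ⟨L1, hL1⟩ := hFlim δ
      obtain ⟨L2, hL2⟩ := hGlim δ
      exact ⟨-Complex.I * (L1 + L2), (hL1.add hL2).const_mul (-Complex.I)⟩
  apply DFunLike.ext
  intro τ
  have k1 := key1 τ
  have k2 : f τ + g τ = 0 := by
    rcases mul_eq_zero.mp (key2 τ) with h0 | h0
    · exact absurd h0 (neg_ne_zero.mpr Complex.I_ne_zero)
    · exact h0
  show f τ = 0
  linear_combination (k1 + k2) / 2

theorem eq_zero_of_id_add_charInvolution (N : ℕ) [NeZero N] (f : CuspForm (Gamma0 N) 2)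
    (h : pml N f + charInvolution N ℂ ℂ (pml N f) = 0) : f = 0 := by
  apply eq_zero_of_periodMap_eq_conj N f (conjForm N f)
  intro γ
  have h1 := DFunLike.congr_fun h γ
  rw [AddMonoidHom.add_apply, pml_apply, charInvolution_periodMap,
    AddMonoidHom.zero_apply] at h1
  linear_combination h1

theorem eq_zero_of_id_sub_charInvolution (N : ℕ) [NeZero N] (g : CuspForm (Gamma0 N) 2)
    (h : pml N g - charInvolution N ℂ ℂ (pml N g) = 0) : g = 0 := by
  apply eq_zero_of_periodMap_eq_conj N g (-conjForm N g)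
  intro γ
  have h1 := DFunLike.congr_fun h γ
  rw [AddMonoidHom.sub_apply, pml_apply, charInvolution_periodMap,
    AddMonoidHom.zero_apply] at h1
  have h2 : periodMap N (-conjForm N g) γ = - periodMap N (conjForm N g) γ := by
    rw [← pml_apply, ← pml_apply, map_neg, AddMonoidHom.neg_apply]
  rw [h2, map_neg]
  linear_combination h1

theorem periodHomPair_injective (N : ℕ) [NeZero N] : Function.Injective (periodHomPair N) := by
  rw [injective_iff_map_eq_zero]
  rintro ⟨f, g⟩ hfg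
  rw [periodHomPair_eq, LinearMap.coprod_apply] at hfg
  simp only [LinearMap.comp_apply, LinearMap.add_apply, LinearMap.sub_apply,
    LinearMap.id_apply] at hfg
  have hιu : charInvolution N ℂ ℂ (pml N f + charInvolution N ℂ ℂ (pml N f))
      = pml N f + charInvolution N ℂ ℂ (pml N f) := by
    rw [map_add, charInvolution_charInvolution, add_comm]
  have hιv : charInvolution N ℂ ℂ (pml N g - charInvolution N ℂ ℂ (pml N g))
      = -(pml N g - charInvolution N ℂ ℂ (pml N g)) := by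
    rw [map_sub, charInvolution_charInvolution, neg_sub]
  have h2 := congrArg (charInvolution N ℂ ℂ) hfg
  rw [map_add, hιu, hιv, map_zero] at h2
  have hu0 : pml N f + charInvolution N ℂ ℂ (pml N f) = 0 := by
    refine AddMonoidHom.ext fun γ => ?_
    have e1 := DFunLike.congr_fun hfg γ
    have e2 := DFunLike.congr_fun h2 γ
    simp only [AddMonoidHom.add_apply, AddMonoidHom.sub_apply, AddMonoidHom.neg_apply,
      AddMonoidHom.zero_apply] at e1 e2 ⊢
    linear_combination (e1 + e2) / 2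
  have hv0 : pml N g - charInvolution N ℂ ℂ (pml N g) = 0 := by
    refine AddMonoidHom.ext fun γ => ?_
    have e1 := DFunLike.congr_fun hfg γ
    have e2 := DFunLike.congr_fun h2 γ
    simp only [AddMonoidHom.add_apply, AddMonoidHom.sub_apply, AddMonoidHom.neg_apply,
      AddMonoidHom.zero_apply] at e1 e2 ⊢
    linear_combination (e1 - e2) / 2
  rw [eq_zero_of_id_add_charInvolution N f hu0, eq_zero_of_id_sub_charInvolution N g hv0]
  rfl

end Fermat.Agent.S21
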