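import Mathlib

set_option autoImplicit false

/-!
# S21 (E5), abstract part: linear algebra on the permutation module of a finite transitive `G`-set

All names are prefixed by `cb`.
-/

namespace Fermat.Agent.S21

open Module

section PermOps

variable {G : Type*} [Group G] {X : Type*} [MulAction G X]

/-- the operator `(L_g v)(x) = v (g • x)` on functions on `X`. -/
def cbPerm (g : G) : (X → ℂ) →ₗ[ℂ] (X → ℂ) := LinearMap.funLeft ℂ ℂ (fun x => g • x)

@[simp] lemma cbPerm_apply (g : G) (v : X → ℂ) (x : X) : cbPerm g v x = v (g • x) := rfl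

/-- the averaging operator `v ↦ ∑_{i<M} L_{g^i} v`. -/
def cbAvg (g : G) (M : ℕ) : (X → ℂ) →ₗ[ℂ] (X → ℂ) := ∑ i ∈ Finset.range M, cbPerm (g ^ i)

lemma cbAvg_apply (g : G) (M : ℕ) (v : X → ℂ) (x : X) :
    cbAvg g M v x = ∑ i ∈ Finset.range M, v (g ^ i • x) := by
  simp [cbAvg, LinearMap.sum_apply, Finset.sum_apply]

/-- the `g`-invariant functions. -/
def cbInv (g : G) : Submodule ℂ (X → ℂ) where
  carrier := {v | ∀ x, v (g • x) = v x}
  zero_mem' := fun _ => rfl
  add_mem' := fun {v w} hv hw x => by simp [hv x, hw x]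
  smul_mem' := fun c v hv x => by simp [hv x]

lemma mem_cbInv {g : G} {v : X → ℂ} : v ∈ cbInv g ↔ ∀ x, v (g • x) = v x := Iff.rfl

lemma cbInv_zpow {g : G} {v : X → ℂ} (hv : v ∈ cbInv g) (k : ℤ) (x : X) :
    v (g ^ k • x) = v x := by
  induction k using Int.induction_on generalizing x with
  | zero => simp
  | succ n ih =>
    rw [zpow_add_one, mul_smul, ih, hv]
  | pred n ih =>
    rw [zpow_sub_one, mul_smul, ih]
    have := hv (g⁻¹ • x)
    rw [smul_inv_smul] at this
    exact this.symm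

lemma cbInv_pow {g : G} {v : X → ℂ} (hv : v ∈ cbInv g) (k : ℕ) (x : X) :
    v (g ^ k • x) = v x := by
  have := cbInv_zpow hv (k : ℤ) x
  simpa using this

/-- the invariant functions are the functions on the orbit space. -/
noncomputable def cbInvEquiv (g : G) :
    (MulAction.orbitRel.Quotient (Subgroup.zpowers g) X → ℂ) ≃ₗ[ℂ] cbInv (X := X) g where
  toFun q := ⟨fun x => q (Quotient.mk'' x), fun x => by
    refine congrArg q ?_
    apply Quotient.sound'
    exact ⟨⟨g, Subgroup.mem_zpowers g⟩, rfl⟩⟩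
  map_add' _ _ := rfl
  map_smul' _ _ := rfl
  invFun v := Quotient.lift (s := MulAction.orbitRel (Subgroup.zpowers g) X) v.1 (by
    rintro x y ⟨⟨k, hk⟩, rfl⟩
    obtain ⟨n, rfl⟩ := Subgroup.mem_zpowers_iff.mp hk
    exact cbInv_zpow v.2 n y)
  left_inv q := by
    ext x
    induction x using Quotient.inductionOn' with
    | h x => rfl
  right_inv v := rfl

lemma finrank_cbInv [Finite X] (g : G) :
    finrank ℂ (cbInv (X := X) g) =
      Nat.card (MulAction.orbitRel.Quotient (Subgroup.zpowers g) X) := by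
  classical
  have := Fintype.ofFinite X
  have : Fintype (MulAction.orbitRel.Quotient (Subgroup.zpowers g) X) := Fintype.ofFinite _
  rw [← (cbInvEquiv g).finrank_eq, Module.finrank_fintype_fun_eq_card, Nat.card_eq_fintype_card]

lemma cbAvg_shift {g : G} {M : ℕ} (hM : ∀ x : X, g ^ M • x = x) (v : X → ℂ) (x : X) :
    cbAvg g M v (g • x) = cbAvg g M v x := by
  rw [cbAvg_apply, cbAvg_apply]
  have h1 : ∀ i, v (g ^ i • g • x) = v (g ^ (i + 1) • x) := fun i => by
    rw [pow_succ, mul_smul]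
  simp_rw [h1]
  have h2 := Finset.sum_range_succ (fun i => v (g ^ i • x)) M
  have h3 := Finset.sum_range_succ' (fun i => v (g ^ i • x)) M
  simp only [pow_zero, one_smul] at h3
  rw [hM x] at h2
  have : ∑ i ∈ Finset.range M, v (g ^ (i + 1) • x) + v x =
      ∑ i ∈ Finset.range M, v (g ^ i • x) + v x := by rw [← h3, ← h2]
  exact add_right_cancel this

lemma range_cbAvg {g : G} {M : ℕ} (hM0 : 0 < M) (hM : ∀ x : X, g ^ M • x = x) :
    LinearMap.range (cbAvg (X := X) g M) = cbInv g := by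
  apply le_antisymm
  · rintro _ ⟨v, rfl⟩
    exact fun x => cbAvg_shift hM v x
  · intro v hv
    refine ⟨(M : ℂ)⁻¹ • v, ?_⟩
    ext x
    rw [cbAvg_apply]
    have : ∀ i ∈ Finset.range M, ((M : ℂ)⁻¹ • v) (g ^ i • x) = (M : ℂ)⁻¹ * v x := fun i _ => by
      rw [Pi.smul_apply, smul_eq_mul, cbInv_pow hv]
    rw [Finset.sum_congr rfl this, Finset.sum_const, Finset.card_range, nsmul_eq_mul,
      ← mul_assoc, mul_inv_cancel₀ (by exact_mod_cast hM0.ne'), one_mul]

/-- `dim ker (∑_{i<M} L_g^i) + #orbits(g) = #X` when `g ^ M` acts trivially. -/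
lemma finrank_ker_cbAvg [Finite X] {g : G} {M : ℕ} (hM0 : 0 < M) (hM : ∀ x : X, g ^ M • x = x) :
    finrank ℂ (LinearMap.ker (cbAvg (X := X) g M)) +
      Nat.card (MulAction.orbitRel.Quotient (Subgroup.zpowers g) X) = Nat.card X := by
  classical
  have := Fintype.ofFinite X
  have h := LinearMap.finrank_range_add_finrank_ker (cbAvg (X := X) g M)
  rw [range_cbAvg hM0 hM, finrank_cbInv, Module.finrank_fintype_fun_eq_card,
    ← Nat.card_eq_fintype_card] at h
  omega

end PermOps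


section Delta

variable {G : Type*} [Group G] {X : Type*} [MulAction G X]

open Classical in
/-- the delta function at `y`. -/
noncomputable def cbDelta (y : X) : X → ℂ := fun x => if x = y then 1 else 0

lemma cbDelta_smul (g : G) (y x : X) : cbDelta (g • y) (g • x) = cbDelta y x := by
  classical
  simp only [cbDelta, smul_left_cancel_iff]

lemma cbDelta_mem_ker_two {s : G} (hs : ∀ x : X, s • s • x = x) (y : X) :
    cbDelta (s • y) - cbDelta y ∈ LinearMap.ker (cbAvg (X := X) s 2) := by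
  rw [LinearMap.mem_ker]
  ext x
  rw [cbAvg_apply]
  simp only [Finset.sum_range_succ, Finset.sum_range_zero, pow_zero, pow_one, one_smul, zero_add,
    Pi.sub_apply, Pi.zero_apply]
  have h1 : cbDelta y (s • x) = cbDelta (s • y) x := by
    rw [← cbDelta_smul s y (s • x), hs]
  rw [cbDelta_smul, h1]
  ring

lemma cbDelta_mem_ker_three {u : G} (hu : ∀ x : X, u • u • u • x = x) (y : X) :
    cbDelta (u • y) - cbDelta y ∈ LinearMap.ker (cbAvg (X := X) u 3) := by
  rw [LinearMap.mem_ker]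
  ext x
  rw [cbAvg_apply]
  simp only [Finset.sum_range_succ, Finset.sum_range_zero, pow_zero, pow_one, one_smul, zero_add,
    Pi.sub_apply, Pi.zero_apply, pow_succ, mul_smul]
  have h1 : cbDelta y (u • u • x) = cbDelta (u • y) x := by
    rw [← cbDelta_smul u y (u • u • x), hu]
  rw [cbDelta_smul, cbDelta_smul, h1]
  ring

lemma cbDelta_sum [Fintype X] (v : X → ℂ) : v = ∑ y, v y • cbDelta y := by
  classical
  ext x
  simp [cbDelta, Finset.sum_apply]

end Delta

section Count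

variable {G : Type*} [Group G] {X : Type*} [MulAction G X] [Finite X]
  [MulAction.IsPretransitive G X]

/-- `ker (1 + L_s) + ker (1 + L_u + L_u²)` has codimension at most one. -/
lemma cb_finrank_sup_ge {s u : G} (hgen : Subgroup.closure {s, u} = ⊤)
    (hs : ∀ x : X, s • s • x = x) (hu : ∀ x : X, u • u • u • x = x) :
    Nat.card X ≤ finrank ℂ (↥(LinearMap.ker (cbAvg (X := X) s 2) ⊔
      LinearMap.ker (cbAvg (X := X) u 3))) + 1 := by
  classical
  have := Fintype.ofFinite X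
  set W := LinearMap.ker (cbAvg (X := X) s 2) ⊔ LinearMap.ker (cbAvg (X := X) u 3) with hW
  -- the subgroup of elements moving delta functions inside `W`
  let K : Subgroup G :=
    { carrier := {g | ∀ y : X, cbDelta (g • y) - cbDelta y ∈ W}
      one_mem' := fun y => by simp
      mul_mem' := fun {g h} hg hh y => by
        have := W.add_mem (hg (h • y)) (hh y)
        rw [mul_smul]
        convert this using 1
        abel
      inv_mem' := fun {g} hg y => by
        have := W.neg_mem (hg (g⁻¹ • y))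
        rw [smul_inv_smul] at this
        convert this using 1
        abel }
  have hsK : s ∈ K := fun y => Submodule.mem_sup_left (cbDelta_mem_ker_two hs y)
  have huK : u ∈ K := fun y => Submodule.mem_sup_right (cbDelta_mem_ker_three hu y)
  have hK : K = ⊤ := by
    rw [eq_top_iff, ← hgen, Subgroup.closure_le]
    rintro g (rfl | rfl)
    · exact hsK
    · exact huK
  rcases isEmpty_or_nonempty X with hX | ⟨⟨x₀⟩⟩
  · simp
  -- every function is a multiple of `δ_{x₀}` modulo `W`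
  have hdelta : ∀ y : X, cbDelta y - cbDelta x₀ ∈ W := by
    intro y
    obtain ⟨g, rfl⟩ := MulAction.exists_smul_eq G x₀ y
    have hg : g ∈ K := hK ▸ Subgroup.mem_top g
    exact hg x₀
  have htop : W ⊔ Submodule.span ℂ {cbDelta x₀} = ⊤ := by
    rw [eq_top_iff]
    intro v _
    have hv : v = (∑ y, v y • (cbDelta y - cbDelta x₀)) + (∑ y, v y) • cbDelta x₀ := by
      conv_lhs => rw [cbDelta_sum v]
      rw [Finset.sum_smul, ← Finset.sum_add_distrib]
      refine Finset.sum_congr rfl fun y _ => ?_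
      rw [smul_sub, sub_add_cancel]
    rw [hv]
    refine Submodule.add_mem _ (Submodule.mem_sup_left ?_) (Submodule.mem_sup_right ?_)
    · exact Submodule.sum_mem _ fun y _ => Submodule.smul_mem _ _ (hdelta y)
    · exact Submodule.smul_mem _ _ (Submodule.subset_span rfl)
  have h1 := Submodule.finrank_add_le_finrank_add_finrank W (Submodule.span ℂ {cbDelta x₀})
  rw [htop, finrank_top, Module.finrank_fintype_fun_eq_card, ← Nat.card_eq_fintype_card] at h1
  have h2 : finrank ℂ (Submodule.span ℂ {cbDelta x₀}) ≤ 1 := by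
    have := finrank_span_le_card (R := ℂ) ({cbDelta x₀} : Set (X → ℂ))
    simpa using this
  omega

end Count

section Rank

variable {V V' : Type*} [AddCommGroup V] [Module ℂ V] [AddCommGroup V'] [Module ℂ V']
  [FiniteDimensional ℂ V]

lemma cb_finrank_le_map (f : V →ₗ[ℂ] V') (S : Submodule ℂ V) :
    finrank ℂ S ≤ finrank ℂ (S.map f) + finrank ℂ (LinearMap.ker f) := by
  have h := LinearMap.finrank_range_add_finrank_ker (f.domRestrict S)
  rw [LinearMap.range_domRestrict, LinearMap.ker_domRestrict] at h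
  have h2 : finrank ℂ ((LinearMap.ker f).comap S.subtype) ≤ finrank ℂ (LinearMap.ker f) := by
    let g : (LinearMap.ker f).comap S.subtype →ₗ[ℂ] LinearMap.ker f :=
      (S.subtype.domRestrict _).codRestrict _ (fun x => x.2)
    refine LinearMap.finrank_le_finrank_of_injective (f := g) ?_
    intro x y hxy
    have := congrArg (fun z : LinearMap.ker f => (z : V)) hxy
    exact Subtype.ext (Subtype.ext this)
  omega

end Rank

section CountZ

variable {G : Type*} [Group G] {X : Type*} [MulAction G X] [Finite X]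
  [MulAction.IsPretransitive G X]

/-- the map `(a, b) ↦ ∑_{i<M} L_t^i (b - a)` on `ker (1 + L_s) × ker (1 + L_u + L_u²)`. -/
noncomputable def cbZmap (s u t : G) (M : ℕ) :
    (LinearMap.ker (cbAvg (X := X) s 2) × LinearMap.ker (cbAvg (X := X) u 3)) →ₗ[ℂ] (X → ℂ) :=
  (cbAvg t M) ∘ₗ
    ((Submodule.subtype _) ∘ₗ (LinearMap.snd ℂ _ _) - (Submodule.subtype _) ∘ₗ (LinearMap.fst ℂ _ _))

lemma cbZmap_apply (s u t : G) (M : ℕ)
    (p : LinearMap.ker (cbAvg (X := X) s 2) × LinearMap.ker (cbAvg (X := X) u 3)) :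
    cbZmap s u t M p = cbAvg t M ((p.2 : X → ℂ) - (p.1 : X → ℂ)) := rfl

/-- the main dimension count. -/
theorem cb_finrank_ker_Zmap_le {s u t : G} (hgen : Subgroup.closure {s, u} = ⊤)
    (hs : ∀ x : X, s • s • x = x) (hu : ∀ x : X, u • u • u • x = x)
    {M : ℕ} (hM0 : 0 < M) (ht : ∀ x : X, t ^ M • x = x) :
    finrank ℂ (LinearMap.ker (cbZmap (X := X) s u t M)) +
      Nat.card (MulAction.orbitRel.Quotient (Subgroup.zpowers s) X) +
      Nat.card (MulAction.orbitRel.Quotient (Subgroup.zpowers u) X) +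
      Nat.card (MulAction.orbitRel.Quotient (Subgroup.zpowers t) X) ≤ 2 * Nat.card X + 1 := by
  classical
  have := Fintype.ofFinite X
  have hs2 : ∀ x : X, s ^ 2 • x = x := fun x => by rw [pow_two, mul_smul, hs]
  have hu3 : ∀ x : X, u ^ 3 • x = x := fun x => by
    rw [pow_succ, pow_two, mul_smul, mul_smul, hu]
  have F1 := finrank_ker_cbAvg (X := X) (g := s) (M := 2) (by norm_num) hs2
  have F2 := finrank_ker_cbAvg (X := X) (g := u) (M := 3) (by norm_num) hu3
  have F3 := finrank_ker_cbAvg (X := X) (g := t) (M := M) hM0 ht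
  have F4 := cb_finrank_sup_ge (X := X) hgen hs hu
  have F5 := cb_finrank_le_map (cbAvg (X := X) t M)
    (LinearMap.ker (cbAvg (X := X) s 2) ⊔ LinearMap.ker (cbAvg (X := X) u 3))
  have F6 := LinearMap.finrank_range_add_finrank_ker (cbZmap (X := X) s u t M)
  rw [Module.finrank_prod] at F6
  have F7 : finrank ℂ ((LinearMap.ker (cbAvg (X := X) s 2) ⊔
      LinearMap.ker (cbAvg (X := X) u 3)).map (cbAvg (X := X) t M)) ≤
      finrank ℂ (LinearMap.range (cbZmap (X := X) s u t M)) := by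
    apply Submodule.finrank_mono
    rintro _ ⟨w, hw, rfl⟩
    obtain ⟨a, ha, b, hb, rfl⟩ := Submodule.mem_sup.mp hw
    refine ⟨(⟨-a, Submodule.neg_mem _ ha⟩, ⟨b, hb⟩), ?_⟩
    rw [cbZmap_apply]
    congr 1
    simp only
    abel
  omega

end CountZ



section Shapiro

variable {G : Type*} [Group G] {X : Type*} [MulAction G X]

/-- a base point, its stabiliser and a section of the orbit map. -/
structure CbData (G : Type*) [Group G] (X : Type*) [MulAction G X] where
  /-- base point -/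
  x₀ : X
  /-- the stabiliser of the base point -/
  Γ : Subgroup G
  hΓ : ∀ g : G, g ∈ Γ ↔ g • x₀ = x₀
  /-- a section of the orbit map -/
  r : X → G
  hr : ∀ x : X, r x • x₀ = x

namespace CbData

variable (D : CbData G X)

/-- `r(g x₀)⁻¹ g ∈ Γ`. -/
def gam (g : G) : D.Γ :=
  ⟨(D.r (g • D.x₀))⁻¹ * g, (D.hΓ _).mpr (by rw [mul_smul, inv_smul_eq_iff, D.hr])⟩

lemma smul_x₀ (δ : D.Γ) : (δ : G) • D.x₀ = D.x₀ := (D.hΓ _).mp δ.2

lemma gam_mul (g : G) (δ : D.Γ) : D.gam (g * δ) = D.gam g * δ := by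
  apply Subtype.ext
  simp only [gam, Subgroup.coe_mul, mul_smul, D.smul_x₀ δ, mul_assoc]

lemma r_smul (g : G) : D.r (g • D.x₀) = g * ((D.gam g : D.Γ) : G)⁻¹ := by
  simp [gam]

/-- the function `Φ(g) = v (g x₀) + ψ(r(g x₀)⁻¹ g)`. -/
def phi (v : X → ℂ) (ψ : Additive D.Γ →+ ℂ) (g : G) : ℂ :=
  v (g • D.x₀) + ψ (Additive.ofMul (D.gam g))

lemma phi_mul (v : X → ℂ) (ψ : Additive D.Γ →+ ℂ) (g : G) (δ : D.Γ) :
    D.phi v ψ (g * δ) = D.phi v ψ g + ψ (Additive.ofMul δ) := by
  simp only [phi, mul_smul, D.smul_x₀ δ, gam_mul, ofMul_mul, map_add]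
  ring

lemma phi_mul_inv (v : X → ℂ) (ψ : Additive D.Γ →+ ℂ) (g : G) (δ : D.Γ) :
    D.phi v ψ (g * ((δ : D.Γ) : G)⁻¹) = D.phi v ψ g - ψ (Additive.ofMul δ) := by
  have h := D.phi_mul v ψ (g * ((δ : D.Γ) : G)⁻¹) δ
  rw [inv_mul_cancel_right] at h
  rw [h]
  ring

/-- the right-`Γ`-invariant function `g ↦ Φ(k g) - Φ(g)` as a function on `X`. -/
def diff (v : X → ℂ) (ψ : Additive D.Γ →+ ℂ) (k : G) : X → ℂ :=
  fun x => D.phi v ψ (k * D.r x) - D.phi v ψ (D.r x)

lemma diff_apply (v : X → ℂ) (ψ : Additive D.Γ →+ ℂ) (k g : G) :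
    D.diff v ψ k (g • D.x₀) = D.phi v ψ (k * g) - D.phi v ψ g := by
  simp only [diff, r_smul, ← mul_assoc, phi_mul_inv]
  ring

/-- vanishing of `ψ` on the conjugates of `k` lying in `Γ`. -/
def Vanish (ψ : Additive D.Γ →+ ℂ) (k : G) : Prop :=
  ∀ (g : G) (h : g⁻¹ * k * g ∈ D.Γ), ψ (Additive.ofMul ⟨g⁻¹ * k * g, h⟩) = 0

lemma phi_triv {v : X → ℂ} {ψ : Additive D.Γ →+ ℂ} {k : G} (hk : ∀ x : X, k • x = x)
    (hψ : D.Vanish ψ k) (g : G) : D.phi v ψ (k * g) = D.phi v ψ g := by
  have hmem : g⁻¹ * k * g ∈ D.Γ := by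
    rw [D.hΓ, mul_smul, mul_smul, hk, inv_smul_smul]
  have h := D.phi_mul v ψ g ⟨g⁻¹ * k * g, hmem⟩
  rw [hψ g hmem, add_zero] at h
  rw [← h]
  congr 1
  simp [mul_assoc]

/-- (I1) `a = diff s` lies in `ker (1 + L_s)`. -/
lemma diff_mem_ker_two {v : X → ℂ} {ψ : Additive D.Γ →+ ℂ} {s : G}
    (hs : ∀ x : X, s • s • x = x) (hψ : D.Vanish ψ (s * s)) :
    D.diff v ψ s ∈ LinearMap.ker (cbAvg (X := X) s 2) := by
  rw [LinearMap.mem_ker]
  ext x
  rw [cbAvg_apply]
  simp only [Finset.sum_range_succ, Finset.sum_range_zero, pow_zero, pow_one, one_smul, zero_add,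
    Pi.zero_apply]
  have hx : x = D.r x • D.x₀ := (D.hr x).symm
  have h1 : D.diff v ψ s x = D.phi v ψ (s * D.r x) - D.phi v ψ (D.r x) := rfl
  have h2 : D.diff v ψ s (s • x) = D.phi v ψ (s * (s * D.r x)) - D.phi v ψ (s * D.r x) := by
    conv_lhs => rw [hx, ← mul_smul, diff_apply]
  have h3 : D.phi v ψ (s * (s * D.r x)) = D.phi v ψ (D.r x) := by
    rw [← mul_assoc]
    exact D.phi_triv (fun y => by rw [mul_smul, hs]) hψ _
  rw [h1, h2, h3]
  ring

/-- (I2) `b = diff u` lies in `ker (1 + L_u + L_u²)`. -/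
lemma diff_mem_ker_three {v : X → ℂ} {ψ : Additive D.Γ →+ ℂ} {u : G}
    (hu : ∀ x : X, u • u • u • x = x) (hψ : D.Vanish ψ (u * u * u)) :
    D.diff v ψ u ∈ LinearMap.ker (cbAvg (X := X) u 3) := by
  rw [LinearMap.mem_ker]
  ext x
  rw [cbAvg_apply]
  simp only [Finset.sum_range_succ, Finset.sum_range_zero, pow_zero, pow_one, one_smul, zero_add,
    Pi.zero_apply, pow_succ, mul_smul]
  have hx : x = D.r x • D.x₀ := (D.hr x).symm
  have h1 : D.diff v ψ u x = D.phi v ψ (u * D.r x) - D.phi v ψ (D.r x) := rfl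
  have h2 : D.diff v ψ u (u • x) = D.phi v ψ (u * (u * D.r x)) - D.phi v ψ (u * D.r x) := by
    conv_lhs => rw [hx, ← mul_smul, diff_apply]
  have h3 : D.diff v ψ u (u • u • x) =
      D.phi v ψ (u * (u * (u * D.r x))) - D.phi v ψ (u * (u * D.r x)) := by
    conv_lhs => rw [hx, ← mul_smul, ← mul_smul, diff_apply]
    simp only [mul_assoc]
  have h4 : D.phi v ψ (u * (u * (u * D.r x))) = D.phi v ψ (D.r x) := by
    rw [← mul_assoc, ← mul_assoc]
    exact D.phi_triv (fun y => by rw [mul_smul, mul_smul, hu]) hψ _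
  rw [h1, h2, h3, h4]
  ring

/-- (I3) the parabolic relation. -/
lemma avg_diff_sub {v : X → ℂ} {ψ : Additive D.Γ →+ ℂ} {s u : G} {M : ℕ}
    (ht : ∀ x : X, (s⁻¹ * u) ^ M • x = x) (hψ : D.Vanish ψ ((s⁻¹ * u) ^ M)) :
    cbAvg (X := X) (s⁻¹ * u) M (D.diff v ψ u - D.diff v ψ s) = 0 := by
  set t := s⁻¹ * u with htdef
  -- `c = diff t` satisfies `c x = b x - a (t x)`
  have hc : D.diff v ψ t = D.diff v ψ u - cbPerm t (D.diff v ψ s) := by
    ext x
    have hx : x = D.r x • D.x₀ := (D.hr x).symm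
    have h1 : D.diff v ψ s (t • x) = D.phi v ψ (s * (t * D.r x)) - D.phi v ψ (t * D.r x) := by
      conv_lhs => rw [hx, ← mul_smul, diff_apply]
    have h2 : s * (t * D.r x) = u * D.r x := by
      rw [htdef, ← mul_assoc, mul_inv_cancel_left]
    rw [Pi.sub_apply, cbPerm_apply, h1, h2]
    simp only [diff]
    ring
  -- the average of `c` telescopes
  have hc0 : cbAvg (X := X) t M (D.diff v ψ t) = 0 := by
    ext x
    rw [cbAvg_apply, Pi.zero_apply]
    have hx : x = D.r x • D.x₀ := (D.hr x).symm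
    have h1 : ∀ i : ℕ, D.diff v ψ t (t ^ i • x) =
        D.phi v ψ (t ^ (i + 1) * D.r x) - D.phi v ψ (t ^ i * D.r x) := fun i => by
      conv_lhs => rw [hx, ← mul_smul, diff_apply]
      rw [← mul_assoc, ← pow_succ']
    simp_rw [h1]
    rw [Finset.sum_range_sub (fun i => D.phi v ψ (t ^ i * D.r x)) M, pow_zero, one_mul,
      D.phi_triv ht hψ, sub_self]
  -- the average of `L_t a` is the average of `a`
  have hshift : cbAvg (X := X) t M (cbPerm t (D.diff v ψ s)) = cbAvg (X := X) t M (D.diff v ψ s) := by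
    ext x
    rw [← cbAvg_shift ht (D.diff v ψ s) x, cbAvg_apply, cbAvg_apply]
    refine Finset.sum_congr rfl fun i _ => ?_
    rw [cbPerm_apply, ← mul_smul, ← mul_smul, ← pow_succ, ← pow_succ']
  rw [map_sub, ← hshift, ← map_sub, ← hc, hc0]

/-- (I4) the kernel: if `diff s = 0 = diff u` then `ψ = 0` and `v` is constant. -/
lemma eq_of_diff_eq_zero [MulAction.IsPretransitive G X] {v : X → ℂ} {ψ : Additive D.Γ →+ ℂ}
    {s u : G} (hgen : Subgroup.closure {s, u} = ⊤)
    (hs : D.diff v ψ s = 0) (hu : D.diff v ψ u = 0) :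
    ψ = 0 ∧ ∀ x : X, v x = v D.x₀ := by
  let K : Subgroup G :=
    { carrier := {k | ∀ g : G, D.phi v ψ (k * g) = D.phi v ψ g}
      one_mem' := fun g => by rw [one_mul]
      mul_mem' := fun {a b} ha hb g => by rw [mul_assoc, ha, hb]
      inv_mem' := fun {a} ha g => by
        have := ha (a⁻¹ * g)
        rw [mul_inv_cancel_left] at this
        exact this.symm }
  have hsK : s ∈ K := fun g => by
    have := congrFun hs (g • D.x₀)
    rw [diff_apply, Pi.zero_apply] at this
    exact sub_eq_zero.mp this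
  have huK : u ∈ K := fun g => by
    have := congrFun hu (g • D.x₀)
    rw [diff_apply, Pi.zero_apply] at this
    exact sub_eq_zero.mp this
  have hK : K = ⊤ := by
    rw [eq_top_iff, ← hgen, Subgroup.closure_le]
    rintro g (rfl | rfl)
    · exact hsK
    · exact huK
  have hconst : ∀ g : G, D.phi v ψ g = D.phi v ψ 1 := fun g => by
    have hg : g ∈ K := hK ▸ Subgroup.mem_top g
    have := hg 1
    rwa [mul_one] at this
  have hψ : ψ = 0 := by
    ext δ
    have h1 := D.phi_mul v ψ 1 δ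
    rw [hconst (1 * _)] at h1
    show ψ (Additive.ofMul δ) = 0
    linear_combination -h1
  refine ⟨hψ, fun x => ?_⟩
  have h1 := hconst (D.r x)
  have h2 := hconst (1 : G)
  simp only [phi, hψ, AddMonoidHom.zero_apply, add_zero, D.hr, one_smul] at h1 h2
  rw [h1]

end CbData

end Shapiro

section Main

variable {G : Type*} [Group G] {X : Type*} [MulAction G X]

/-- `diff` as a linear map in `(v, ψ)`. -/
def CbData.diffL (D : CbData G X) (k : G) :
    ((X → ℂ) × (Additive D.Γ →+ ℂ)) →ₗ[ℂ] (X → ℂ) where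
  toFun p := D.diff p.1 p.2 k
  map_add' p q := by
    ext x
    simp only [CbData.diff, CbData.phi, Prod.fst_add, Prod.snd_add, Pi.add_apply,
      AddMonoidHom.add_apply]
    ring
  map_smul' c p := by
    ext x
    simp only [CbData.diff, CbData.phi, Prod.smul_fst, Prod.smul_snd, Pi.smul_apply,
      AddMonoidHom.smul_apply, smul_eq_mul, RingHom.id_apply]
    ring

lemma CbData.diffL_apply (D : CbData G X) (k : G) (p : (X → ℂ) × (Additive D.Γ →+ ℂ)) :
    D.diffL k p = D.diff p.1 p.2 k := rfl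

variable [Finite X] [MulAction.IsPretransitive G X]

/-- **Abstract bound**: homomorphisms `Γ → ℂ` killing the relevant conjugates have dimension at
most `#X + 2 - o(s) - o(u) - o(s⁻¹u)`. -/
theorem cb_main (D : CbData G X) {s u : G} (hgen : Subgroup.closure {s, u} = ⊤)
    (hs : ∀ x : X, s • s • x = x) (hu : ∀ x : X, u • u • u • x = x)
    {M : ℕ} (hM0 : 0 < M) (ht : ∀ x : X, (s⁻¹ * u) ^ M • x = x)
    (H : Submodule ℂ (Additive D.Γ →+ ℂ))
    (hH : ∀ ψ ∈ H, D.Vanish ψ (s * s) ∧ D.Vanish ψ (u * u * u) ∧ D.Vanish ψ ((s⁻¹ * u) ^ M)) :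
    FiniteDimensional ℂ H ∧
      finrank ℂ H + Nat.card (MulAction.orbitRel.Quotient (Subgroup.zpowers s) X) +
        Nat.card (MulAction.orbitRel.Quotient (Subgroup.zpowers u) X) +
        Nat.card (MulAction.orbitRel.Quotient (Subgroup.zpowers (s⁻¹ * u)) X) ≤
      Nat.card X + 2 := by
  classical
  have := Fintype.ofFinite X
  -- the map `Ψ`
  let incl : ((X → ℂ) × H) →ₗ[ℂ] ((X → ℂ) × (Additive D.Γ →+ ℂ)) :=
    LinearMap.prodMap LinearMap.id H.subtype
  let Ψa : ((X → ℂ) × H) →ₗ[ℂ] LinearMap.ker (cbAvg (X := X) s 2) :=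
    (D.diffL s ∘ₗ incl).codRestrict _ (fun p => D.diff_mem_ker_two hs (hH p.2 p.2.2).1)
  let Ψb : ((X → ℂ) × H) →ₗ[ℂ] LinearMap.ker (cbAvg (X := X) u 3) :=
    (D.diffL u ∘ₗ incl).codRestrict _ (fun p => D.diff_mem_ker_three hu (hH p.2 p.2.2).2.1)
  let Ψ := Ψa.prod Ψb
  have hΨ1 : ∀ p, ((Ψ p).1 : X → ℂ) = D.diff p.1 p.2.1 s := fun p => rfl
  have hΨ2 : ∀ p, ((Ψ p).2 : X → ℂ) = D.diff p.1 p.2.1 u := fun p => rfl
  -- `Ψ` lands in the kernel of `cbZmap`
  have hrange : LinearMap.range Ψ ≤ LinearMap.ker (cbZmap (X := X) s u (s⁻¹ * u) M) := by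
    rintro _ ⟨p, rfl⟩
    rw [LinearMap.mem_ker, cbZmap_apply, hΨ1, hΨ2]
    exact D.avg_diff_sub ht (hH p.2 p.2.2).2.2
  -- the kernel of `Ψ`
  have hkerΨ : ∀ p ∈ LinearMap.ker Ψ, p.2 = 0 ∧ ∀ x : X, p.1 x = p.1 D.x₀ := by
    intro p hp
    rw [LinearMap.mem_ker] at hp
    have h1 : D.diff p.1 p.2.1 s = 0 := by rw [← hΨ1, hp]; rfl
    have h2 : D.diff p.1 p.2.1 u = 0 := by rw [← hΨ2, hp]; rfl
    obtain ⟨h3, h4⟩ := D.eq_of_diff_eq_zero hgen h1 h2
    exact ⟨Subtype.ext h3, h4⟩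
  -- finite-dimensionality
  have hfin : FiniteDimensional ℂ H := by
    refine Module.Finite.of_injective (Ψ ∘ₗ LinearMap.inr ℂ (X → ℂ) H) ?_
    rw [← LinearMap.ker_eq_bot, LinearMap.ker_eq_bot']
    intro ψ hψ
    exact (hkerΨ (0, ψ) hψ).1
  refine ⟨hfin, ?_⟩
  -- `dim ker Ψ ≤ 1`
  have hker1 : finrank ℂ (LinearMap.ker Ψ) ≤ 1 := by
    let e : (X → ℂ) × H := ((fun _ => 1), 0)
    have hle : LinearMap.ker Ψ ≤ Submodule.span ℂ {e} := by
      intro p hp
      obtain ⟨h1, h2⟩ := hkerΨ p hp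
      rw [Submodule.mem_span_singleton]
      refine ⟨p.1 D.x₀, ?_⟩
      refine Prod.ext ?_ ?_
      · ext x
        simp [e, h2 x]
      · simp [e, h1]
    refine (Submodule.finrank_mono hle).trans ?_
    have := finrank_span_le_card (R := ℂ) ({e} : Set ((X → ℂ) × H))
    simpa using this
  have hrk := LinearMap.finrank_range_add_finrank_ker Ψ
  rw [Module.finrank_prod, Module.finrank_fintype_fun_eq_card, ← Nat.card_eq_fintype_card] at hrk
  have hmono := Submodule.finrank_mono hrange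
  have hZ := cb_finrank_ker_Zmap_le (X := X) (t := s⁻¹ * u) hgen hs hu hM0 ht
  omega

end Main


end Fermat.Agent.S21
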