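import Mathlib
import Fermat.Prelude.Def_ModularCurve_PeriodHomPair
import Fermat.Prelude.Def_ModularCurve_GenusNumerics
import Fermat.Agent.S21.CohomAbstract
import Fermat.Agent.S24.Hurwitz

set_option autoImplicit false

/-!
S21, piece (E5): upper bound for the dimension of the space of parabolic homomorphisms
`Γ₀(N) → ℂ`, from the abstract count of `CohomAbstract.lean` applied to `X = P¹(ℤ/N)`.
-/

namespace Fermat.Agent.S21

open CongruenceSubgroup ModularCurve ModularCurve.Period Module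
open scoped MatrixGroups
open Fermat.Agent.S24 ModularGroup

/-- the data `(P¹(ℤ/N), (1:0), Γ₀(N))`. -/
noncomputable def cbDataP1 (N : ℕ) [NeZero N] : CbData SL(2, ℤ) (P1 (ZMod N)) where
  x₀ := P1.base
  Γ := Gamma0 N
  hΓ g := by
    rw [← P1.stabilizer_base (N := N), MulAction.mem_stabilizer_iff]
  r x := (MulAction.exists_smul_eq SL(2, ℤ) (P1.base : P1 (ZMod N)) x).choose
  hr x := (MulAction.exists_smul_eq SL(2, ℤ) (P1.base : P1 (ZMod N)) x).choose_spec

lemma cb_closure_S_ST : Subgroup.closure ({S, S * T} : Set SL(2, ℤ)) = ⊤ := by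
  rw [eq_top_iff, ← SpecialLinearGroup.SL2Z_generators, Subgroup.closure_le]
  rintro g (rfl | rfl)
  · exact Subgroup.subset_closure (by simp)
  · have hS : S ∈ Subgroup.closure ({S, S * T} : Set SL(2, ℤ)) :=
      Subgroup.subset_closure (by simp)
    have hST : S * T ∈ Subgroup.closure ({S, S * T} : Set SL(2, ℤ)) :=
      Subgroup.subset_closure (by simp)
    have := Subgroup.mul_mem _ (Subgroup.inv_mem _ hS) hST
    rwa [inv_mul_cancel_left] at this


lemma cb_S_smul {N : ℕ} (x : P1 (ZMod N)) : S • S • x = x := by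
  have := P1.S_sq_smul x
  rwa [pow_two, mul_smul] at this

lemma cb_ST_smul {N : ℕ} (x : P1 (ZMod N)) : (S * T) • (S * T) • (S * T) • x = x := by
  have := P1.ST_cube_smul x
  rwa [pow_succ, pow_two, mul_smul, mul_smul] at this

lemma cb_T_pow_smul (N : ℕ) [NeZero N] (x : P1 (ZMod N)) : (S⁻¹ * (S * T)) ^ N • x = x := by
  rw [inv_mul_cancel_left]
  obtain ⟨v, rfl⟩ := P1.mk_surjective x
  rw [P1.smul_mk, P1.mk_eq_mk]
  have h1 := Unimod.T_zpow_smul_fst (N : ℤ) v
  have h2 := Unimod.T_zpow_smul_snd (N : ℤ) v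
  rw [zpow_natCast] at h1 h2
  rw [h1, h2]
  simp

lemma cb_trace_conj (g k : SL(2, ℤ)) :
    ((g⁻¹ * k * g : SL(2, ℤ)) : Matrix (Fin 2) (Fin 2) ℤ).trace =
      (k : Matrix (Fin 2) (Fin 2) ℤ).trace := by
  rw [Matrix.SpecialLinearGroup.coe_mul, Matrix.SpecialLinearGroup.coe_mul,
    Matrix.trace_mul_cycle, ← Matrix.SpecialLinearGroup.coe_mul, mul_inv_cancel,
    Matrix.SpecialLinearGroup.coe_one, Matrix.one_mul]

lemma cb_trace_SS : ((S * S : SL(2, ℤ)) : Matrix (Fin 2) (Fin 2) ℤ).trace ^ 2 = 4 := by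
  rw [Matrix.SpecialLinearGroup.coe_mul, ModularGroup.coe_S]
  simp [Matrix.trace_fin_two]

lemma cb_trace_ST3 :
    ((S * T * (S * T) * (S * T) : SL(2, ℤ)) : Matrix (Fin 2) (Fin 2) ℤ).trace ^ 2 = 4 := by
  simp only [Matrix.SpecialLinearGroup.coe_mul, ModularGroup.coe_S, ModularGroup.coe_T]
  simp [Matrix.trace_fin_two]

lemma cb_trace_T_pow (N : ℕ) :
    (((S⁻¹ * (S * T)) ^ N : SL(2, ℤ)) : Matrix (Fin 2) (Fin 2) ℤ).trace ^ 2 = 4 := by
  rw [inv_mul_cancel_left, ← zpow_natCast, ModularGroup.coe_T_zpow]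
  simp [Matrix.trace_fin_two]

lemma cb_vanish (N : ℕ) [NeZero N] {ψ : Additive (Gamma0 N) →+ ℂ}
    (hψ : ψ ∈ parabolicHoms ℂ (Gamma0 N) ℂ) {k : SL(2, ℤ)}
    (hk : (k : Matrix (Fin 2) (Fin 2) ℤ).trace ^ 2 = 4) :
    (cbDataP1 N).Vanish ψ k := by
  intro g h
  rw [mem_parabolicHoms_iff] at hψ
  apply hψ ⟨g⁻¹ * k * g, h⟩
  show ((g⁻¹ * k * g : SL(2, ℤ)) : Matrix (Fin 2) (Fin 2) ℤ).trace ^ 2 = 4
  rw [cb_trace_conj, hk]

theorem cb_parabolicHoms_bound (N : ℕ) [NeZero N] :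
    FiniteDimensional ℂ (parabolicHoms ℂ (Gamma0 N) ℂ) ∧
      finrank ℂ (parabolicHoms ℂ (Gamma0 N) ℂ) +
        Nat.card (MulAction.orbitRel.Quotient (Subgroup.zpowers S) (P1 (ZMod N))) +
        Nat.card (MulAction.orbitRel.Quotient (Subgroup.zpowers (S * T)) (P1 (ZMod N))) +
        Nat.card (MulAction.orbitRel.Quotient (Subgroup.zpowers T) (P1 (ZMod N))) ≤
      Nat.card (P1 (ZMod N)) + 2 := by
  have h := cb_main (cbDataP1 N) cb_closure_S_ST cb_S_smul cb_ST_smul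
    (Nat.pos_of_ne_zero (NeZero.ne N)) (cb_T_pow_smul N) (parabolicHoms ℂ (Gamma0 N) ℂ)
    (fun ψ hψ => ⟨cb_vanish N hψ cb_trace_SS, cb_vanish N hψ cb_trace_ST3,
      cb_vanish N hψ (cb_trace_T_pow N)⟩)
  rw [inv_mul_cancel_left] at h
  exact h

theorem finiteDimensional_parabolicHoms (N : ℕ) [NeZero N] :
    FiniteDimensional ℂ (parabolicHoms ℂ (Gamma0 N) ℂ) :=
  (cb_parabolicHoms_bound N).1

theorem finrank_parabolicHoms_le (N : ℕ) [NeZero N] :
    (Module.finrank ℂ (parabolicHoms ℂ (Gamma0 N) ℂ) : ℚ) ≤ 2 * ModularCurve.genusFormula N := by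
  have h := (cb_parabolicHoms_bound N).2
  have h2 := two_mul_card_S_orbits N
  have h3 := three_mul_card_ST_orbits N
  rw [card_T_orbits, card_P1_zmod] at h
  have h' : (finrank ℂ (parabolicHoms ℂ (Gamma0 N) ℂ) : ℚ) +
      Nat.card (MulAction.orbitRel.Quotient (Subgroup.zpowers S) (P1 (ZMod N))) +
      Nat.card (MulAction.orbitRel.Quotient (Subgroup.zpowers (S * T)) (P1 (ZMod N))) +
      cuspCount N ≤ dedekindPsi N + 2 := by exact_mod_cast h
  have h2' : (2 : ℚ) * Nat.card (MulAction.orbitRel.Quotient (Subgroup.zpowers S) (P1 (ZMod N))) =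
      dedekindPsi N + nuTwo N := by exact_mod_cast h2
  have h3' : (3 : ℚ) *
      Nat.card (MulAction.orbitRel.Quotient (Subgroup.zpowers (S * T)) (P1 (ZMod N))) =
      dedekindPsi N + 2 * nuThree N := by exact_mod_cast h3
  unfold genusFormula
  linarith

end Fermat.Agent.S21
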