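import Mathlib
import Fermat.Agent.S21.Parabolic
import Fermat.Agent.S21.Injective
import Fermat.Agent.S21.CohomBound
import Fermat.Agent.S23.Trivial

set_option autoImplicit false

/-!
S21 assembly: Eichler--Shimura from the pieces (E1)--(E5) and the dimension formula S20
(taken as a hypothesis here).
-/

namespace Fermat.Agent.S21

open UpperHalfPlane CongruenceSubgroup ModularCurve ModularCurve.Period Filter Topology
open scoped MatrixGroups

theorem range_periodHomPair_le (N : ℕ) [NeZero N] :
    LinearMap.range (periodHomPair N) ≤ parabolicHoms ℂ (Gamma0 N) ℂ := by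
  rw [periodHomPair_eq N]
  rintro _ ⟨⟨f, g⟩, rfl⟩
  have hf : pml N f ∈ parabolicHoms ℂ (Gamma0 N) ℂ := periodMap_mem_parabolicHoms N f
  have hg : pml N g ∈ parabolicHoms ℂ (Gamma0 N) ℂ := periodMap_mem_parabolicHoms N g
  have hf' := charInvolution_mem_parabolicHoms N ℂ ℂ hf
  have hg' := charInvolution_mem_parabolicHoms N ℂ ℂ hg
  simp only [LinearMap.coprod_apply, LinearMap.comp_apply, LinearMap.add_apply,
    LinearMap.sub_apply, LinearMap.id_apply]
  exact Submodule.add_mem _ (Submodule.add_mem _ hf hf') (Submodule.sub_mem _ hg hg')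

theorem eichlerShimura_of_finrank (N : ℕ) [NeZero N]
    (hS20 : (Module.finrank ℂ (CuspForm (Gamma0 N) 2) : ℚ) = ModularCurve.genusFormula N) :
    Function.Injective (periodHomPair N) ∧
      LinearMap.range (periodHomPair N) = parabolicHoms ℂ (Gamma0 N) ℂ := by
  have hinj := periodHomPair_injective N
  refine ⟨hinj, ?_⟩
  have : FiniteDimensional ℂ (CuspForm (Gamma0 N) 2) :=
    Fermat.Agent.S23.finiteDimensional_cuspForm N 2
  have := finiteDimensional_parabolicHoms N
  have hle := range_periodHomPair_le N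
  refine Submodule.eq_of_le_of_finrank_le hle ?_
  have h1 : Module.finrank ℂ (LinearMap.range (periodHomPair N)) =
      Module.finrank ℂ (CuspForm (Gamma0 N) 2 × CuspForm (Gamma0 N) 2) :=
    LinearMap.finrank_range_of_inj hinj
  rw [h1, Module.finrank_prod]
  have h2 := finrank_parabolicHoms_le N
  rw [← hS20] at h2
  have h3 : (Module.finrank ℂ (parabolicHoms ℂ (Gamma0 N) ℂ) : ℚ) ≤
      ((Module.finrank ℂ (CuspForm (Gamma0 N) 2) + Module.finrank ℂ (CuspForm (Gamma0 N) 2) : ℕ) :
        ℚ) := by
    push_cast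
    linarith
  exact_mod_cast h3

/-- The upper bound `dim S₂(Γ₀(N)) ≤ g` follows from the injectivity of the period map and the
cohomological bound, without the dimension formula. -/
theorem finrank_cuspForm_le_genusFormula (N : ℕ) [NeZero N] :
    (Module.finrank ℂ (CuspForm (Gamma0 N) 2) : ℚ) ≤ ModularCurve.genusFormula N := by
  have hinj := periodHomPair_injective N
  have : FiniteDimensional ℂ (CuspForm (Gamma0 N) 2) :=
    Fermat.Agent.S23.finiteDimensional_cuspForm N 2
  have := finiteDimensional_parabolicHoms N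
  have hle := range_periodHomPair_le N
  have h1 : Module.finrank ℂ (LinearMap.range (periodHomPair N)) =
      Module.finrank ℂ (CuspForm (Gamma0 N) 2 × CuspForm (Gamma0 N) 2) :=
    LinearMap.finrank_range_of_inj hinj
  rw [Module.finrank_prod] at h1
  have h2 := finrank_parabolicHoms_le N
  have h3 : Module.finrank ℂ (LinearMap.range (periodHomPair N)) ≤
      Module.finrank ℂ (parabolicHoms ℂ (Gamma0 N) ℂ) := Submodule.finrank_mono hle
  rw [h1] at h3
  have h4 : ((Module.finrank ℂ (CuspForm (Gamma0 N) 2) +
      Module.finrank ℂ (CuspForm (Gamma0 N) 2) : ℕ) : ℚ) ≤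
      (Module.finrank ℂ (parabolicHoms ℂ (Gamma0 N) ℂ) : ℚ) := by exact_mod_cast h3
  push_cast at h4
  linarith

/-- Eichler--Shimura from the lower bound `g ≤ dim S₂(Γ₀(N))` alone. -/
theorem eichlerShimura_of_le_finrank (N : ℕ) [NeZero N]
    (hlow : ModularCurve.genusFormula N ≤ (Module.finrank ℂ (CuspForm (Gamma0 N) 2) : ℚ)) :
    Function.Injective (periodHomPair N) ∧
      LinearMap.range (periodHomPair N) = parabolicHoms ℂ (Gamma0 N) ℂ :=
  eichlerShimura_of_finrank N (le_antisymm (finrank_cuspForm_le_genusFormula N) hlow)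

end Fermat.Agent.S21
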